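import Fermat.Agent.LT.Reduction.Integral
import Fermat.Agent.LT.Space
import Mathlib.NumberTheory.NumberField.ClassNumber
import Mathlib.RingTheory.ClassGroup.Basic

/-!
# Finiteness of `B(F) \ GL₂(A_f) / U`

To `g ∈ GL₂(A_f)` we attach the lattice `LatticeMem g ⊆ F²`. Every such lattice is carried by an
upper triangular `γ ∈ GL₂(F)` to a sum of two ideals from a fixed set of class representatives,
hence the double coset space of the upper triangular group has finitely many classes at every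
level, and the group elements relating two representatives can be normalised to have bounded
denominators.
-/

set_option autoImplicit false

open scoped TensorProduct NumberField Matrix

namespace Fermat.Agent.LT.Reduction

open NumberField

variable {F : Type*} [Field F] [NumberField F]

/-- Membership in `GL₂(Ô)`. -/
def IntGL (g : GLFin F) : Prop :=
  (∀ i j, g.val i j ∈ integralAdele F) ∧ ∀ i j, (g⁻¹).val i j ∈ integralAdele F

/-- `GL₂(Ô)` is closed under products. -/
theorem IntGL.mul {g h : GLFin F} (hg : IntGL g) (hh : IntGL h) : IntGL (g * h) := by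
  constructor <;> intro i j
  · rw [Units.val_mul, Matrix.mul_apply]
    exact sum_mem fun k _ => mul_mem (hg.1 i k) (hh.1 k j)
  · rw [_root_.mul_inv_rev, Units.val_mul, Matrix.mul_apply]
    exact sum_mem fun k _ => mul_mem (hh.2 i k) (hg.2 k j)

/-- `GL₂(Ô)` is closed under inverses. -/
theorem IntGL.inv {g : GLFin F} (hg : IntGL g) : IntGL g⁻¹ :=
  ⟨hg.2, by rw [inv_inv]; exact hg.1⟩

/-- `GL₂(Ô)` contains the identity. -/
theorem IntGL.one : IntGL (1 : GLFin F) := by
  constructor <;> intro i j <;> simp only [inv_one, Units.val_one, Matrix.one_apply] <;>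
    split <;> simp [one_mem, zero_mem]

/-- The principal congruence group of level `1` lies in `GL₂(Ô)`. -/
theorem intGL_of_isPrincipal {g : GLFin F} (hg : IsPrincipal F 1 g) : IntGL g := by
  constructor <;> intro i j <;> obtain ⟨a, ha, b, hb, h1, h2⟩ := hg i j
  · rw [h1]
    exact add_mem (IntGL.one.1 i j) (mul_mem (natCast_mem _ _) ha)
  · rw [h2]
    exact add_mem (IntGL.one.1 i j) (mul_mem (natCast_mem _ _) hb)

/-- The lattice `F² ∩ g Ô²`. -/
def LatticeMem (g : GLFin F) (x : Fin 2 → F) : Prop :=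
  ∀ i, ((g⁻¹).val *ᵥ (fun j => finIncl F (x j))) i ∈ integralAdele F

/-- The lattice of `γ g` is the `γ`-translate of the lattice of `g`. -/
theorem latticeMem_glIncl_mul (γ : GL (Fin 2) F) (g : GLFin F) (x : Fin 2 → F) :
    LatticeMem (glIncl F γ * g) x ↔ LatticeMem g ((γ⁻¹).val *ᵥ x) := by
  have h : ((glIncl F γ)⁻¹).val *ᵥ (fun j => finIncl F (x j)) =
      fun j => finIncl F (((γ⁻¹).val *ᵥ x) j) := by
    rw [← map_inv]
    funext i
    exact (RingHom.map_mulVec (finIncl F) (γ⁻¹).val x i).symm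
  unfold LatticeMem
  rw [_root_.mul_inv_rev, Units.val_mul, ← Matrix.mulVec_mulVec, h]

/-- The lattice is closed under sums. -/
theorem LatticeMem.add {g : GLFin F} {x y : Fin 2 → F} (hx : LatticeMem g x) (hy : LatticeMem g y) :
    LatticeMem g (x + y) := fun i => by
  rw [show (fun j => finIncl F ((x + y) j)) =
    (fun j => finIncl F (x j)) + fun j => finIncl F (y j) from funext fun j => map_add _ _ _,
    Matrix.mulVec_add, Pi.add_apply]
  exact add_mem (hx i) (hy i)

/-- The lattice is stable under scaling by integers of `F`. -/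
theorem LatticeMem.smul {g : GLFin F} {x : Fin 2 → F} (o : 𝓞 F) (hx : LatticeMem g x) :
    LatticeMem g ((o : F) • x) := fun i => by
  rw [show (fun j => finIncl F (((o : F) • x) j)) =
    finIncl F (o : F) • fun j => finIncl F (x j) from funext fun j => map_mul _ _ _,
    Matrix.mulVec_smul, Pi.smul_apply, smul_eq_mul]
  exact mul_mem (finIncl_mem_of_isIntegral o) (hx i)

theorem latticeMem_zero (g : GLFin F) : LatticeMem g 0 := fun i => by
  rw [show (fun j => finIncl F ((0 : Fin 2 → F) j)) = 0 from funext fun j => map_zero _,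
    Matrix.mulVec_zero]
  exact zero_mem _

/-- Two adelic matrices with the same lattice differ by an element of `GL₂(Ô)`. -/
theorem intGL_of_latticeMem_iff {g g' : GLFin F} (h : ∀ x, LatticeMem g x ↔ LatticeMem g' x) :
    IntGL (g'⁻¹ * g) := by
  have key : ∀ g g' : GLFin F, (∀ x, LatticeMem g x ↔ LatticeMem g' x) →
      ∀ i j, (g'⁻¹ * g).val i j ∈ integralAdele F := by
    intro g g' h i j
    obtain ⟨M, hM, hMi⟩ := exists_denominator (fun p : Bool × Fin 2 × Fin 2 =>
      if p.1 then (g⁻¹).val p.2.1 p.2.2 else (g'⁻¹).val p.2.1 p.2.2)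
    choose a o ho hx using fun k => exists_finIncl_add M hM (g.val k j)
    have hvec : (fun k => g.val k j) = (fun k => finIncl F (a k)) + (M : FinAdele F) • o :=
      funext fun k => by simpa using hx k
    have hsmall : ∀ (b : Bool) i, ((if b then g⁻¹ else g'⁻¹).val *ᵥ ((M : FinAdele F) • o)) i ∈
        integralAdele F := by
      intro b i
      rw [Matrix.mulVec_smul, Pi.smul_apply, smul_eq_mul, Matrix.mulVec, dotProduct,
        Finset.mul_sum]
      refine sum_mem fun k _ => ?_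
      rw [← mul_assoc]
      refine mul_mem ?_ (ho k)
      have := hMi (b, i, k)
      cases b <;> simpa using this
    have ha : LatticeMem g a := by
      intro i
      have h1 : ((g⁻¹).val *ᵥ fun k => g.val k j) i =
          (1 : Matrix (Fin 2) (Fin 2) (FinAdele F)) i j := by
        rw [← Units.val_one, ← inv_mul_cancel g, Units.val_mul]
        rfl
      rw [hvec, Matrix.mulVec_add, Pi.add_apply] at h1
      rw [eq_sub_of_add_eq h1]
      exact sub_mem (IntGL.one.1 i j) (hsmall true i)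
    rw [Units.val_mul, Matrix.mul_apply]
    change ((g'⁻¹).val *ᵥ fun k => g.val k j) i ∈ _
    rw [hvec, Matrix.mulVec_add, Pi.add_apply]
    exact add_mem ((h a).mp ha i) (hsmall false i)
  exact ⟨key g g' h, by rw [_root_.mul_inv_rev, inv_inv]; exact key g' g fun x => (h x).symm⟩

/-- A matrix in `GL₂(F)` is upper triangular. -/
def IsUpper (γ : GL (Fin 2) F) : Prop := γ.val 1 0 = 0

omit [NumberField F] in
/-- Upper triangular matrices are closed under inverses. -/
theorem IsUpper.inv {γ : GL (Fin 2) F} (h : IsUpper γ) : IsUpper γ⁻¹ := by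
  unfold IsUpper at h ⊢
  rw [Matrix.coe_units_inv, Matrix.inv_def, Matrix.adjugate_fin_two]
  simp [h]

omit [NumberField F] in
/-- Upper triangular matrices are closed under products. -/
theorem IsUpper.mul {γ δ : GL (Fin 2) F} (h : IsUpper γ) (h' : IsUpper δ) : IsUpper (γ * δ) := by
  unfold IsUpper at *
  simp [Matrix.mul_apply, Fin.sum_univ_two, h, h']

/-- Representative ideal of a class. -/
noncomputable def repIdeal (C : ClassGroup (𝓞 F)) : Ideal (𝓞 F) :=
  (ClassGroup.mk0_surjective C).choose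

/-- Every nonzero ideal is a principal multiple of the representative of an ideal class. -/
theorem exists_mem_repIdeal_iff {J : Ideal (𝓞 F)} (hJ : J ≠ ⊥) :
    ∃ C : ClassGroup (𝓞 F), ∃ l : F, l ≠ 0 ∧
      ∀ z : F, (∃ b ∈ J, (b : F) = z) ↔ ∃ j ∈ repIdeal C, z = l * (j : F) := by
  let J' : (nonZeroDivisors (Ideal (𝓞 F))) := ⟨J, mem_nonZeroDivisors_of_ne_zero hJ⟩
  obtain ⟨x, y, hx, hy, h⟩ :=
    ClassGroup.mk0_eq_mk0_iff.mp (ClassGroup.mk0_surjective (ClassGroup.mk0 J')).choose_spec.symm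
  refine ⟨ClassGroup.mk0 J', (y : F) / (x : F), div_ne_zero (by simpa using hy) (by simpa using hx),
    fun z => ⟨?_, ?_⟩⟩
  · rintro ⟨b, hb, rfl⟩
    have : x * b ∈ Ideal.span {y} * repIdeal (ClassGroup.mk0 J') :=
      h ▸ Ideal.mul_mem_mul (Ideal.mem_span_singleton_self x) hb
    obtain ⟨j, hj, hyj⟩ := Ideal.mem_span_singleton_mul.mp this
    refine ⟨j, hj, ?_⟩
    have h2 : (y : F) * (j : F) = (x : F) * (b : F) := by
      rw [← map_mul, ← map_mul, hyj]
    have hx' : (x : F) ≠ 0 := by simpa using hx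
    field_simp
    rw [h2]; ring
  · rintro ⟨j, hj, rfl⟩
    have : y * j ∈ Ideal.span {x} * J :=
      h.symm ▸ Ideal.mul_mem_mul (Ideal.mem_span_singleton_self y) hj
    obtain ⟨b, hb, hxb⟩ := Ideal.mem_span_singleton_mul.mp this
    refine ⟨b, hb, ?_⟩
    have h2 : (x : F) * (b : F) = (y : F) * (j : F) := by
      rw [← map_mul, ← map_mul, hxb]
    have hx' : (x : F) ≠ 0 := by simpa using hx
    field_simp
    linear_combination h2

/-- An invertible ideal splits a projection onto it. -/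
theorem exists_section {Jc : Ideal (𝓞 F)} (hJ : Jc ≠ ⊥) (P : F → F → Prop)
    (hadd : ∀ a b a' b', P a b → P a' b' → P (a + a') (b + b'))
    (hsmul : ∀ (o : 𝓞 F) a b, P a b → P (o * a) (o * b))
    (hex : ∀ c ∈ Jc, ∃ a, P a c) :
    ∃ t : F, ∀ c ∈ Jc, P ((c : F) * t) c := by
  obtain ⟨J', hJ'⟩ := ClassGroup.mk0_surjective
    (ClassGroup.mk0 ⟨Jc, mem_nonZeroDivisors_of_ne_zero hJ⟩)⁻¹
  obtain ⟨e, he0, he⟩ : ∃ e : 𝓞 F, e ≠ 0 ∧ Jc * (J' : Ideal (𝓞 F)) = Ideal.span {e} := by
    let A : (nonZeroDivisors (Ideal (𝓞 F))) := ⟨Jc, mem_nonZeroDivisors_of_ne_zero hJ⟩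
    have h : ClassGroup.mk0 (A * J') = 1 := by rw [map_mul, hJ', mul_inv_cancel]
    obtain ⟨e, he⟩ := ((ClassGroup.mk0_eq_one_iff (A * J').2).mp h).principal
    refine ⟨e, fun h0 => nonZeroDivisors.ne_zero (A * J').2 ?_, he⟩
    exact he.trans (by simp [h0])
  have hdvd : ∀ b ∈ (J' : Ideal (𝓞 F)), ∀ c ∈ Jc, e ∣ c * b := fun b hb c hc =>
    Ideal.mem_span_singleton.mp (he ▸ Ideal.mul_mem_mul hc hb)
  have key : ∀ z ∈ Jc * (J' : Ideal (𝓞 F)), ∃ t : F, ∀ c ∈ Jc,
      P ((c : F) * t) ((c : F) * (z : F) / (e : F)) := by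
    intro z hz
    refine Submodule.mul_induction_on hz ?_ ?_
    · intro a ha b hb
      obtain ⟨a', ha'⟩ := hex a ha
      refine ⟨(b : F) * a' / (e : F), fun c hc => ?_⟩
      obtain ⟨o, ho⟩ := hdvd b hb c hc
      have heF : (e : F) ≠ 0 := by simpa using he0
      have ho' : (c : F) * (b : F) = (e : F) * (o : F) := by rw [← map_mul, ← map_mul, ho]
      convert hsmul o a' a ha' using 1
      · field_simp
        linear_combination a' * ho'
      · rw [show ((a * b : 𝓞 F) : F) = (a : F) * (b : F) from map_mul (algebraMap (𝓞 F) F) a b]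
        field_simp
        linear_combination (a : F) * ho'
    · rintro z w ⟨t, ht⟩ ⟨s, hs⟩
      refine ⟨t + s, fun c hc => ?_⟩
      convert hadd _ _ _ _ (ht c hc) (hs c hc) using 1
      · ring
      · rw [show ((z + w : 𝓞 F) : F) = (z : F) + (w : F) from map_add (algebraMap (𝓞 F) F) z w]
        ring
  obtain ⟨t, ht⟩ := key e (he ▸ Ideal.mem_span_singleton_self e)
  refine ⟨t, fun c hc => ?_⟩
  have heF : (e : F) ≠ 0 := by simpa using he0
  have := ht c hc
  rwa [mul_div_assoc, div_self heF, mul_one] at this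

omit [NumberField F] in
theorem mulVec_upper (a b d u v : F) :
    !![a, b; 0, d] *ᵥ ![u, v] = ![a * u + b * v, d * v] := by
  funext i
  fin_cases i <;> simp [Matrix.mulVec, dotProduct, Fin.sum_univ_two]

/-- Every lattice is an upper triangular translate of one of finitely many. -/
theorem exists_upper_lattice (g : GLFin F) :
    ∃ (β : GL (Fin 2) F) (C C' : ClassGroup (𝓞 F)), IsUpper β ∧
      ∀ x : Fin 2 → F, LatticeMem (glIncl F β * g) x ↔
        (∃ j ∈ repIdeal C, x 0 = (j : F)) ∧ ∃ j ∈ repIdeal C', x 1 = (j : F) := by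
  obtain ⟨M, hM, hMi⟩ := exists_denominator (fun p : Bool × Fin 2 × Fin 2 =>
    if p.1 then g.val p.2.1 p.2.2 else (g⁻¹).val p.2.1 p.2.2)
  have hMF : (M : F) ≠ 0 := Nat.cast_ne_zero.mpr hM.ne'
  have hbound : ∀ x, LatticeMem g x → ∀ i, ∃ o : 𝓞 F, x i = (o : F) / (M : F) := by
    intro x hx i
    have h1 : finIncl F ((M : F) * x i) ∈ integralAdele F := by
      have h2 : (g.val *ᵥ ((g⁻¹).val *ᵥ fun j => finIncl F (x j))) i = finIncl F (x i) := by
        rw [Matrix.mulVec_mulVec, ← Units.val_mul, mul_inv_cancel, Units.val_one, Matrix.one_mulVec]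
      rw [map_mul, map_natCast, ← h2, Matrix.mulVec, dotProduct, Finset.mul_sum]
      refine sum_mem fun k _ => ?_
      rw [← mul_assoc]
      exact mul_mem (by simpa using hMi (true, i, k)) (hx k)
    obtain ⟨o, ho⟩ := exists_integer_of_finIncl_mem h1
    exact ⟨o, by rw [ho, mul_div_cancel_left₀ _ hMF]⟩
  have hcontains : ∀ o o' : 𝓞 F, LatticeMem g ![(M : F) * (o : F), (M : F) * (o' : F)] := by
    intro o o' i
    have : (fun j => finIncl F (![(M : F) * (o : F), (M : F) * (o' : F)] j)) =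
        (M : FinAdele F) • ![finIncl F (o : F), finIncl F (o' : F)] := by
      funext j
      fin_cases j <;> simp
    rw [this, Matrix.mulVec_smul, Pi.smul_apply, smul_eq_mul, Matrix.mulVec, dotProduct,
      Finset.mul_sum]
    refine sum_mem fun k _ => ?_
    rw [← mul_assoc]
    refine mul_mem (by simpa using hMi (false, i, k)) ?_
    fin_cases k <;> exact finIncl_mem_of_isIntegral _
  let P : F → F → Prop := fun a b => LatticeMem g ![a / (M : F), b / (M : F)]
  have hadd : ∀ a b a' b', P a b → P a' b' → P (a + a') (b + b') := fun a b a' b' h h' => by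
    have := h.add h'
    simpa [P, add_div] using this
  have hsmul : ∀ (o : 𝓞 F) a b, P a b → P (o * a) (o * b) := fun o a b h => by
    have := h.smul o
    rw [show (o : F) • (![a / (M : F), b / (M : F)] : Fin 2 → F) =
      ![(o : F) * a / (M : F), (o : F) * b / (M : F)] by
        funext j; fin_cases j <;> exact (mul_div_assoc _ _ _).symm] at this
    exact this
  have h0 : P 0 0 := by
    have : (![(0 : F) / M, 0 / M] : Fin 2 → F) = 0 := by
      funext j; fin_cases j <;> simp
    change LatticeMem g _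
    rw [this]
    exact latticeMem_zero g
  let Jb : Ideal (𝓞 F) :=
    { carrier := {b | P (b : F) 0}
      add_mem' := fun {b b'} h h' => by simpa using hadd _ _ _ _ h h'
      zero_mem' := by simpa using h0
      smul_mem' := fun o b h => by simpa using hsmul o _ _ h }
  let Jc : Ideal (𝓞 F) :=
    { carrier := {c | ∃ a, P a (c : F)}
      add_mem' := fun {c c'} ⟨a, h⟩ ⟨a', h'⟩ => ⟨a + a', by simpa using hadd _ _ _ _ h h'⟩
      zero_mem' := ⟨0, by simpa using h0⟩
      smul_mem' := fun o c ⟨a, h⟩ => ⟨(o : F) * a, by simpa using hsmul o _ _ h⟩ }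
  have hMM : P (((M : 𝓞 F) * M : 𝓞 F) : F) 0 ∧ P 0 (((M : 𝓞 F) * M : 𝓞 F) : F) := by
    constructor
    · have := hcontains 1 0
      simpa [P, map_mul, hMF] using this
    · have := hcontains 0 1
      simpa [P, map_mul, hMF] using this
  have hMM0 : ((M : 𝓞 F) * M) ≠ 0 := by simp [hM.ne']
  have hJb : Jb ≠ ⊥ := fun h => hMM0 (Ideal.mem_bot.mp (h ▸ (hMM.1 : _ ∈ Jb)))
  have hJc : Jc ≠ ⊥ := fun h => hMM0 (Ideal.mem_bot.mp (h ▸ (⟨0, hMM.2⟩ : _ ∈ Jc)))
  obtain ⟨t, ht⟩ := exists_section hJc P hadd hsmul fun c hc => hc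
  obtain ⟨C, l, hl, hC⟩ := exists_mem_repIdeal_iff hJb
  obtain ⟨C', m, hm, hC'⟩ := exists_mem_repIdeal_iff hJc
  have hlM : l / (M : F) ≠ 0 := div_ne_zero hl hMF
  have hmM : m / (M : F) ≠ 0 := div_ne_zero hm hMF
  let A : GL (Fin 2) F := Matrix.GeneralLinearGroup.mkOfDetNeZero
    !![l / (M : F), m * t / (M : F); 0, m / (M : F)] (by simp [Matrix.det_fin_two, hl, hm, hMF])
  refine ⟨A⁻¹, C, C', IsUpper.inv (by simp [IsUpper, A]), fun x => ?_⟩
  rw [latticeMem_glIncl_mul, inv_inv]
  have hA : A.val *ᵥ x = ![(l * x 0 + m * x 1 * t) / M, (m * x 1) / M] := by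
    rw [show x = ![x 0, x 1] by funext j; fin_cases j <;> rfl]
    simp only [A, Matrix.GeneralLinearGroup.val_mkOfDetNeZero, mulVec_upper]
    congr 1 <;> simp <;> ring
  rw [hA]
  change P (l * x 0 + m * x 1 * t) (m * x 1) ↔ _
  constructor
  · intro hP
    obtain ⟨c, hc⟩ : ∃ c ∈ Jc, (c : F) = m * x 1 := by
      obtain ⟨o, ho⟩ := hbound _ hP 1
      refine ⟨o, ⟨l * x 0 + m * x 1 * t, ?_⟩, ?_⟩
      · have : (o : F) = m * x 1 := by
          have := ho
          simp only [Matrix.cons_val_one, Matrix.cons_val_fin_one] at this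
          field_simp at this
          linear_combination -this
        rw [this]; exact hP
      · have := ho
        simp only [Matrix.cons_val_one, Matrix.cons_val_fin_one] at this
        field_simp at this
        linear_combination -this
    have hb : P (l * x 0) 0 := by
      have h1 := hadd _ _ _ _ hP (hsmul (-1) _ _ (ht c hc.1))
      rw [hc.2] at h1
      simpa using h1
    obtain ⟨o, ho⟩ := hbound _ hb 0
    have ho' : (o : F) = l * x 0 := by
      simp only [Matrix.cons_val_zero] at ho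
      field_simp at ho
      linear_combination -ho
    obtain ⟨j, hj, hjz⟩ := (hC _).mp ⟨o, by change P (o : F) 0; rw [ho']; exact hb, ho'⟩
    obtain ⟨j', hj', hjz'⟩ := (hC' _).mp ⟨c, hc.1, hc.2⟩
    exact ⟨⟨j, hj, mul_left_cancel₀ hl hjz⟩, ⟨j', hj', mul_left_cancel₀ hm hjz'⟩⟩
  · rintro ⟨⟨j, hj, hj0⟩, ⟨j', hj', hj1⟩⟩
    obtain ⟨b, hb, hbz⟩ := (hC (l * x 0)).mpr ⟨j, hj, by rw [hj0]⟩
    obtain ⟨c, hc, hcz⟩ := (hC' (m * x 1)).mpr ⟨j', hj', by rw [hj1]⟩
    have := hadd _ _ _ _ hb (ht c hc)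
    rw [hbz, hcz] at this
    simpa using this

/-- `B(F) \ GL₂(A_f) / GL₂(Ô)` is finite. -/
theorem exists_upper_classes :
    ∃ (κ : Type) (_ : Finite κ) (cls : GLFin F → κ), ∀ g g', cls g = cls g' →
      ∃ β : GL (Fin 2) F, IsUpper β ∧ ∃ k, IntGL k ∧ glIncl F β * g = g' * k := by
  choose β C C' hβ hL using exists_upper_lattice (F := F)
  obtain ⟨m, ⟨e⟩⟩ := Finite.exists_equiv_fin (ClassGroup (𝓞 F) × ClassGroup (𝓞 F))
  refine ⟨Fin m, inferInstance, fun g => e (C g, C' g), fun g g' h => ?_⟩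
  obtain ⟨h1, h2⟩ := Prod.ext_iff.mp (e.injective h)
  simp only at h1 h2
  have hk : IntGL ((glIncl F (β g') * g')⁻¹ * (glIncl F (β g) * g)) :=
    intGL_of_latticeMem_iff fun x => by rw [hL, hL, h1, h2]
  refine ⟨(β g')⁻¹ * β g, (hβ g').inv.mul (hβ g), _, hk, ?_⟩
  rw [map_mul, map_inv]
  group

/-- `F^× \ A_f^× / Ô^×` is finite. -/
theorem exists_idele_classes :
    ∃ (κ : Type) (_ : Finite κ) (cls : (FinAdele F)ˣ → κ), ∀ a a', cls a = cls a' →
      ∃ (α : Fˣ) (v : (FinAdele F)ˣ), (v : FinAdele F) ∈ integralAdele F ∧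
        (↑v⁻¹ : FinAdele F) ∈ integralAdele F ∧
          a = Units.map (finIncl F).toMonoidHom α * a' * v := by
  obtain ⟨κ, hκ, cls, h⟩ := exists_upper_classes (F := F)
  refine ⟨κ, hκ, fun a => cls (scalarFin F a), fun a a' haa => ?_⟩
  obtain ⟨β, hβ, k, hk, hk'⟩ := h _ _ haa
  have hd : β.val 0 0 * β.val 1 1 ≠ 0 := by
    have := ((Matrix.isUnit_iff_isUnit_det _).mp β.isUnit).ne_zero
    rwa [Matrix.det_fin_two, show β.val 1 0 = 0 from hβ, mul_zero, sub_zero] at this
  set b : Fˣ := Units.mk0 (β.val 0 0) (left_ne_zero_of_mul hd)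
  have hbinv : (β⁻¹).val 0 0 = (↑b⁻¹ : F) := by
    rw [Matrix.coe_units_inv, Matrix.inv_def, Matrix.adjugate_fin_two, Matrix.det_fin_two,
      show β.val 1 0 = 0 from hβ]
    simp [b, Ring.inverse_eq_inv', right_ne_zero_of_mul hd, mul_comm]
  set v : (FinAdele F)ˣ := a'⁻¹ * Units.map (finIncl F).toMonoidHom b * a with hv
  have h00 : k.val 0 0 = (v : FinAdele F) := by
    have hkk : k = (scalarFin F a')⁻¹ * (glIncl F β * scalarFin F a) := by rw [hk']; group
    rw [hkk, ← map_inv]
    simp [scalarFin, glIncl, Matrix.mul_apply, Fin.sum_univ_two, hv, b, mul_assoc]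
  have h00' : (k⁻¹).val 0 0 = (↑v⁻¹ : FinAdele F) := by
    have hkk : k⁻¹ = (scalarFin F a)⁻¹ * glIncl F β⁻¹ * scalarFin F a' := by
      rw [map_inv, ← _root_.mul_inv_rev, hk']
      group
    have hg : (glIncl F β⁻¹).val 0 0 = finIncl F (↑b⁻¹ : F) := by
      rw [← hbinv]; rfl
    generalize glIncl F β⁻¹ = Q at hg hkk
    rw [hkk, ← map_inv]
    simp [scalarFin, Matrix.mul_apply, Fin.sum_univ_two, hv, hg, mul_comm, mul_left_comm,
      mul_assoc]
  refine ⟨b⁻¹, v, h00 ▸ hk.1 0 0, h00' ▸ hk.2 0 0, ?_⟩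
  rw [hv, map_inv]
  group

/-- `B(F) \ GL₂(A_f) / U` is finite. -/
theorem exists_finite_reps (U : Level F) :
    ∃ R : Finset (GLFin F), ∀ g : GLFin F, ∃ β : GL (Fin 2) F, IsUpper β ∧ ∃ r ∈ R,
      (QuotientGroup.mk (glIncl F β * g) : GLFin F ⧸ U.toSubgroup) = QuotientGroup.mk r := by
  classical
  obtain ⟨κ, hκ, cls, hcls⟩ := exists_upper_classes (F := F)
  obtain ⟨N, hN, hU⟩ := U.exists_principal
  obtain ⟨μ, hμ, res, hres⟩ := exists_residue (F := F) N hN
  have := Fintype.ofFinite κ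
  have := Fintype.ofFinite μ
  let cl : GLFin F → (Fin 2 × Fin 2 → μ) := fun k p => res (k.val p.1 p.2)
  let rep : κ → GLFin F := fun c => if h : ∃ g, cls g = c then h.choose else 1
  let krep : (Fin 2 × Fin 2 → μ) → GLFin F := fun c =>
    if h : ∃ k, IntGL k ∧ cl k = c then h.choose else 1
  refine ⟨Finset.univ.image fun p : κ × (Fin 2 × Fin 2 → μ) => rep p.1 * krep p.2, fun g => ?_⟩
  have hg : ∃ g', cls g' = cls g := ⟨g, rfl⟩
  have hrep : cls (rep (cls g)) = cls g := by
    simp only [rep, dif_pos hg]; exact hg.choose_spec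
  obtain ⟨β, hβ, k, hk, hgk⟩ := hcls g _ hrep.symm
  have hkc : ∃ k', IntGL k' ∧ cl k' = cl k := ⟨k, hk, rfl⟩
  have hkr : IntGL (krep (cl k)) ∧ cl (krep (cl k)) = cl k := by
    simp only [krep, dif_pos hkc]; exact hkc.choose_spec
  refine ⟨β, hβ, rep (cls g) * krep (cl k), Finset.mem_image.mpr ⟨(cls g, cl k),
    Finset.mem_univ _, rfl⟩, ?_⟩
  rw [hgk]
  refine (QuotientGroup.eq).mpr ?_
  rw [show (rep (cls g) * k)⁻¹ * (rep (cls g) * krep (cl k)) = k⁻¹ * krep (cl k) by group]
  refine hU _ fun i j => ?_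
  set k' := krep (cl k)
  choose z hz hzk using fun i j => hres (k'.val i j) (k.val i j) (hkr.1.1 i j) (hk.1 i j)
    (congrFun hkr.2 (i, j))
  have hkz : k'.val = k.val + N • Matrix.of z := by
    ext i j; simpa [nsmul_eq_mul] using hzk i j
  refine ⟨((k⁻¹).val * Matrix.of z) i j, ?_, (-((k'⁻¹).val * Matrix.of z)) i j, ?_, ?_, ?_⟩
  · rw [Matrix.mul_apply]
    exact sum_mem fun l _ => mul_mem (hk.2 i l) (hz l j)
  · rw [Matrix.neg_apply, Matrix.mul_apply]
    exact neg_mem (sum_mem fun l _ => mul_mem (hkr.1.2 i l) (hz l j))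
  · rw [Units.val_mul, hkz, Matrix.mul_add, mul_smul_comm, ← Units.val_mul, inv_mul_cancel,
      Units.val_one, Matrix.add_apply, Matrix.smul_apply, nsmul_eq_mul]
  · have : k.val = k'.val - N • Matrix.of z := by rw [hkz, add_sub_cancel_right]
    rw [_root_.mul_inv_rev, inv_inv, Units.val_mul, this, Matrix.mul_sub, mul_smul_comm,
      ← Units.val_mul, inv_mul_cancel, Units.val_one, Matrix.sub_apply, Matrix.smul_apply,
      nsmul_eq_mul, Matrix.neg_apply]
    ring

/-- `M` times every entry is integral. -/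
def IntBy (M : ℕ) (A : Matrix (Fin 2) (Fin 2) F) : Prop :=
  ∀ i j, ∃ o : 𝓞 F, (o : F) = (M : F) * A i j

/-- Elements of `GL₂(F)` moving one finite coset to another have bounded denominators, up to
scalars. -/
theorem exists_normalise (U : Level F) (r r' : GLFin F) :
    ∃ M : ℕ, 0 < M ∧ ∀ γ : GL (Fin 2) F,
      (QuotientGroup.mk (glIncl F γ * r) : GLFin F ⧸ U.toSubgroup) = QuotientGroup.mk r' →
      ∃ α : Fˣ, IntBy M (scalarGlobal F α * γ).val ∧
        IntBy M ((scalarGlobal F α * γ)⁻¹).val := by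
  classical
  obtain ⟨κ, hκ, cls, hcls⟩ := exists_idele_classes (F := F)
  have := Fintype.ofFinite κ
  let rep : κ → (FinAdele F)ˣ := fun c => if h : ∃ a, cls a = c then h.choose else 1
  obtain ⟨M, hM, hMi⟩ := exists_denominator (fun p : Fin 4 × Fin 2 × Fin 2 =>
    (![r, r⁻¹, r', r'⁻¹] p.1).val p.2.1 p.2.2)
  obtain ⟨M', hM', hM'i⟩ := exists_denominator (fun p : κ × Bool =>
    if p.2 then (rep p.1 : FinAdele F) else (↑(rep p.1)⁻¹ : FinAdele F))
  refine ⟨M * M * M', by positivity, fun γ hγ => ?_⟩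
  obtain ⟨a, k, hk, hu⟩ := U.le_maximal _ (QuotientGroup.eq.mp hγ)
  have hk' := intGL_of_isPrincipal hk
  have hrep : cls (rep (cls a)) = cls a := by
    have h : ∃ a', cls a' = cls a := ⟨a, rfl⟩
    simp only [rep, dif_pos h]; exact h.choose_spec
  obtain ⟨α, v, hv, hv', hav⟩ := hcls a _ hrep.symm
  have hr' : r' = glIncl F γ * r * (scalarFin F a * k) := by rw [← hu]; group
  set c := rep (cls a)
  have hs : ∀ (u : (FinAdele F)ˣ) (g : GLFin F) i j,
      (scalarFin F u * g).val i j = (u : FinAdele F) * g.val i j := fun u g i j => by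
    simp [scalarFin, Matrix.mul_apply, Fin.sum_univ_two]
    fin_cases i <;> simp
  have hα : scalarFin F (Units.map (finIncl F).toMonoidHom α) =
      glIncl F (scalarGlobal F α) := (glIncl_scalarGlobal α).symm
  have h1 : glIncl F (scalarGlobal F α * γ) = scalarFin F (c * v)⁻¹ * (r' * k⁻¹ * r⁻¹) := by
    rw [map_mul, ← hα, hr']
    have e1 : glIncl F γ * r * (scalarFin F a * k) * k⁻¹ * r⁻¹ =
        scalarFin F a * glIncl F γ := by
      rw [scalarFin_comm a k, ← mul_assoc, mul_assoc _ (scalarFin F a) k⁻¹, scalarFin_comm a k⁻¹,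
        ← mul_assoc, mul_inv_cancel_right, mul_assoc _ (scalarFin F a) r⁻¹, scalarFin_comm a r⁻¹,
        ← mul_assoc, mul_inv_cancel_right, scalarFin_comm]
    rw [e1, hav, ← mul_assoc, ← map_mul (scalarFin F) (c * v)⁻¹,
      show (c * v)⁻¹ * (Units.map (finIncl F).toMonoidHom α * c * v) =
        Units.map (finIncl F).toMonoidHom α by
          rw [mul_assoc (Units.map (finIncl F).toMonoidHom α) c v]
          exact inv_mul_eq_of_eq_mul (Units.ext (mul_comm _ _))]
  have h2 : glIncl F (scalarGlobal F α * γ)⁻¹ = scalarFin F (c * v) * (r * k * r'⁻¹) := by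
    rw [map_inv, h1, _root_.mul_inv_rev, ← map_inv, inv_inv, scalarFin_comm]
    group
  have key : ∀ (δ : GL (Fin 2) F) (g : GLFin F) (u : (FinAdele F)ˣ),
      (M' : FinAdele F) * (u : FinAdele F) ∈ integralAdele F →
      (∀ i j, ((M * M : ℕ) : FinAdele F) * g.val i j ∈ integralAdele F) →
      glIncl F δ = scalarFin F u * g → IntBy (M * M * M') δ.val := by
    intro δ g u hu hg hd i j
    refine exists_integer_of_finIncl_mem ?_
    rw [map_mul, map_natCast, show finIncl F (δ.val i j) = (glIncl F δ).val i j from rfl, hd, hs,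
      show ((M * M * M' : ℕ) : FinAdele F) * ((u : FinAdele F) * g.val i j) =
        ((M' : FinAdele F) * (u : FinAdele F)) * (((M * M : ℕ) : FinAdele F) * g.val i j) by
      push_cast; ring]
    exact mul_mem hu (hg i j)
  have hprod : ∀ (x z : Fin 4) (y : GLFin F), IntGL y → ∀ i j,
      ((M * M : ℕ) : FinAdele F) *
        (![r, r⁻¹, r', r'⁻¹] x * y * ![r, r⁻¹, r', r'⁻¹] z).val i j ∈ integralAdele F := by
    intro x z y hy i j
    rw [Units.val_mul, Units.val_mul, Matrix.mul_apply, Finset.mul_sum]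
    refine sum_mem fun l _ => ?_
    rw [Matrix.mul_apply, Finset.sum_mul, Finset.mul_sum]
    refine sum_mem fun q _ => ?_
    rw [show ((M * M : ℕ) : FinAdele F) * ((![r, r⁻¹, r', r'⁻¹] x).val i q * y.val q l *
        (![r, r⁻¹, r', r'⁻¹] z).val l j) =
      ((M : FinAdele F) * (![r, r⁻¹, r', r'⁻¹] x).val i q) * y.val q l *
        ((M : FinAdele F) * (![r, r⁻¹, r', r'⁻¹] z).val l j) by push_cast; ring]
    exact mul_mem (mul_mem (hMi (x, i, q)) (hy.1 q l)) (hMi (z, l, j))
  refine ⟨α, key _ (r' * k⁻¹ * r⁻¹) _ ?_ (fun i j => ?_) h1,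
    key _ (r * k * r'⁻¹) _ ?_ (fun i j => ?_) h2⟩
  · rw [_root_.mul_inv_rev, Units.val_mul, mul_comm (↑v⁻¹ : FinAdele F), ← mul_assoc]
    exact mul_mem (by simpa using hM'i (cls a, false)) hv'
  · simpa using hprod 2 1 _ hk'.inv i j
  · rw [Units.val_mul, ← mul_assoc]
    exact mul_mem (by simpa using hM'i (cls a, true)) hv
  · simpa using hprod 0 3 _ hk' i j

end Fermat.Agent.LT.Reduction
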