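import Fermat.Agent.LT.Reduction.Partition
import Mathlib.MeasureTheory.Integral.Pi
import Mathlib.Analysis.SpecialFunctions.ImproperIntegrals

/-!
# Siegel sets have finite volume

The hyperbolic volume of a box `‖z‖ ≤ A, b ≤ t` weighted by `t ^ α` is finite for `α < 2`; hence
`height ^ α` is integrable on Siegel sets and against the partition of unity.
-/

set_option autoImplicit false

noncomputable section

open MeasureTheory
open scoped NumberField

namespace Fermat.Agent.LT.Reduction

open NumberField H3

/-- The cuspidal box at one place. -/
def box (A b : ℝ) : Set H3 := {P | ‖zc P‖ ≤ A ∧ b ≤ tc P}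

/-- Cuspidal boxes are measurable. -/
theorem measurableSet_box (A b : ℝ) : MeasurableSet (box A b) :=
  (measurableSet_le (continuous_norm.comp continuous_zc).measurable measurable_const).inter
    (measurableSet_le measurable_const continuous_tc.measurable)

/-- `t ^ α` is integrable on a cuspidal box for `α < 2`. -/
theorem integrable_box_rpow {α : ℝ} (hα : α < 2) (A : ℝ) {b : ℝ} (hb : 0 < b) :
    Integrable ((box A b).indicator fun P => tc P ^ α) H3.vol := by
  have hm : Measurable ((box A b).indicator fun P => tc P ^ α) :=
    (continuous_tc.measurable.pow_const α).indicator (measurableSet_box A b)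
  rw [H3.vol, integrable_map_measure hm.aestronglyMeasurable measurable_pt.aemeasurable, coordVol,
    integrable_withDensity_iff_integrable_smul' measurable_density
      (Filter.Eventually.of_forall fun _ => ENNReal.ofReal_lt_top)]
  have h1 : Integrable ((Metric.closedBall (0 : ℂ) A).indicator fun _ => (1 : ℝ)) volume :=
    (integrable_indicator_iff measurableSet_closedBall).mpr
      (integrableOn_const (measure_closedBall_lt_top).ne)
  have h2 : Integrable ((Set.Ici b).indicator fun t : ℝ => t ^ (α - 3)) volume := by
    rw [integrable_indicator_iff measurableSet_Ici, integrableOn_Ici_iff_integrableOn_Ioi]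
    exact integrableOn_Ioi_rpow_of_lt (by linarith) hb
  have h3 := (h1.mul_prod h2).restrict (s := upper)
  rw [← Measure.volume_eq_prod] at h3
  refine h3.congr ?_
  filter_upwards [ae_restrict_mem measurableSet_upper] with p hp
  have hp' : 0 < p.2 := hp
  simp only [Function.comp, density]
  rw [ENNReal.toReal_ofReal (by positivity), smul_eq_mul]
  by_cases hz : ‖p.1‖ ≤ A
  swap
  · rw [Set.indicator_of_notMem (fun h => hz (by simpa using h)),
      Set.indicator_of_notMem (s := box A b) (fun h => hz (by simpa [zc_pt _ hp'] using h.1)),
      zero_mul, mul_zero]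
  by_cases ht : b ≤ p.2
  swap
  · rw [Set.indicator_of_notMem (s := Set.Ici b) ht,
      Set.indicator_of_notMem (s := box A b) (fun h => ht (by simpa [tc_pt _ hp'] using h.2)),
      mul_zero, mul_zero]
  rw [Set.indicator_of_mem (by simpa using hz), Set.indicator_of_mem (s := Set.Ici b) ht,
    Set.indicator_of_mem (s := box A b) (by simp [box, zc_pt _ hp', tc_pt _ hp', hz, ht]),
    tc_pt _ hp', one_mul, Real.rpow_sub hp']
  norm_num
  field_simp

variable {F : Type*} [Field F] [NumberField F] {U : Level F}
  [MeasurableSpace (GLFin F ⧸ U.toSubgroup)] [DiscreteMeasurableSpace (GLFin F ⧸ U.toSubgroup)]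

omit [DiscreteMeasurableSpace (GLFin F ⧸ U.toSubgroup)] in
theorem measurable_height_rpow (α : ℝ) : Measurable fun y : Y U => height y ^ α :=
  (Finset.measurable_prod _ fun w _ => continuous_tc.measurable.comp
    ((measurable_pi_apply w).comp measurable_fst)).pow_const α

/-- Powers of the height below the square are integrable on Siegel sets. -/
theorem integrable_height_rpow {α : ℝ} (hα : α < 2) (R : Finset (GLFin F)) (A B : ℝ) {b : ℝ}
    (hb : 0 < b) :
    Integrable ((siegel U R A B b).indicator fun y => height y ^ α)
      ((Measure.pi fun _ : InfinitePlace F => H3.vol).prod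
        (Measure.count : Measure (GLFin F ⧸ U.toSubgroup))) := by
  classical
  have := countable_cosets U
  set T : Set (GLFin F ⧸ U.toSubgroup) := ↑(R.image (QuotientGroup.mk (s := U.toSubgroup))) with hT
  have h1 : Integrable (fun P : InfinitePlace F → H3 =>
      ∏ w, (box A b).indicator (fun P => tc P ^ α) (P w)) (Measure.pi fun _ => H3.vol) :=
    Integrable.fintype_prod fun _ => integrable_box_rpow hα A hb
  have h2 : Integrable (T.indicator fun _ => (1 : ℝ)) Measure.count :=
    (integrable_indicator_iff MeasurableSet.of_discrete).mpr (integrableOn_const (by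
      rw [hT, Measure.count_apply_finset]; exact ENNReal.natCast_ne_top _))
  have hm : Measurable fun y : Y U => height y ^ α := measurable_height_rpow α
  refine (h1.mul_prod h2).mono'
    (hm.indicator (measurableSet_siegel R A B b)).aestronglyMeasurable
    (Filter.Eventually.of_forall fun y => ?_)
  have hnn : ∀ w, 0 ≤ (box A b).indicator (fun P => tc P ^ α) (y.1 w) := fun w =>
    Set.indicator_nonneg (fun P _ => Real.rpow_nonneg (tc_pos P).le α) _
  by_cases hy : y ∈ siegel U R A B b
  · obtain ⟨hc, r, hr, hyr⟩ := hy
    rw [Set.indicator_of_mem (show y ∈ siegel U R A B b from ⟨hc, r, hr, hyr⟩),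
      Set.indicator_of_mem (show y.2 ∈ T from Finset.mem_image.mpr ⟨r, hr, hyr.symm⟩), mul_one,
      Real.norm_of_nonneg (Real.rpow_nonneg (height_pos y).le α), height,
      ← Real.finsetProd_rpow _ _ fun w _ => (tc_pos _).le]
    refine (Finset.prod_congr rfl fun w _ => ?_).le
    rw [Set.indicator_of_mem (show y.1 w ∈ box A b from ⟨(hc w).2.1, (hc w).1⟩)]
  · rw [Set.indicator_of_notMem hy, norm_zero]
    exact mul_nonneg (Finset.prod_nonneg fun w _ => hnn w)
      (Set.indicator_nonneg (fun _ _ => zero_le_one) _)

/-- The total mass of the weight is finite, also with powers of the height. -/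
theorem integrable_weight_mul_height [IsTotallyComplex F] {α : ℝ} (hα : α < 2)
    (R : Finset (GLFin F)) (A B : ℝ) {b : ℝ} (hb : 0 < b) :
    Integrable (fun y => weight (siegel U R A B b) y * height y ^ α)
      ((Measure.pi fun _ : InfinitePlace F => H3.vol).prod
        (Measure.count : Measure (GLFin F ⧸ U.toSubgroup))) := by
  have hfin := fun y => finite_siegel_translates U R A B b hb y
  have hm : Measurable fun y : Y U => height y ^ α := measurable_height_rpow α
  refine (integrable_height_rpow (U := U) hα R A B hb).mono'
    ((measurable_weight (measurableSet_siegel R A B b) hfin).mul hm).aestronglyMeasurable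
    (Filter.Eventually.of_forall fun y => ?_)
  have h := Real.rpow_nonneg (height_pos y).le α
  rw [Real.norm_of_nonneg (mul_nonneg (weight_nonneg _ y) h)]
  by_cases hy : y ∈ siegel U R A B b
  · rw [Set.indicator_of_mem hy]
    refine mul_le_of_le_one_left h ?_
    simpa [Set.indicator_of_mem hy] using weight_le_indicator hfin y
  · simp [weight, hy]

/-- A measurable partition of unity of finite total mass, supported in a Siegel set. -/
theorem exists_partition_integrable [IsTotallyComplex F] (U : Level F)
    [MeasurableSpace (GLFin F ⧸ U.toSubgroup)]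
    [DiscreteMeasurableSpace (GLFin F ⧸ U.toSubgroup)] :
    ∃ (R : Finset (GLFin F)) (A B b : ℝ) (P : PartitionOfUnity U), 0 < b ∧ Measurable P.weight ∧
      (∀ y, P.weight y ≤ (siegel U R A B b).indicator (fun _ => 1) y) ∧
        Integrable P.weight ((Measure.pi fun _ : InfinitePlace F => H3.vol).prod
          (Measure.count : Measure (GLFin F ⧸ U.toSubgroup))) := by
  obtain ⟨R, A, B, b, P, hb, hP, hle⟩ := exists_partition U
  refine ⟨R, A, B, b, P, hb, ?_, hle, ?_⟩ <;> rw [hP]
  · exact measurable_weight (measurableSet_siegel R A B b) fun y =>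
      finite_siegel_translates U R A B b hb y
  · simpa using integrable_weight_mul_height (U := U) (α := 0) two_pos R A B hb

end Fermat.Agent.LT.Reduction
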