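import Fermat.Agent.LT.Reduction.Volume
import Fermat.Agent.LT.Setup.Measure

/-!
# Reduction theory for the measure `yVol`

Siegel sets have finite volume, powers `height ^ α` with `α < 2` are integrable on them, and there
is a partition of unity supported on a Siegel set.
-/

set_option autoImplicit false

noncomputable section

open MeasureTheory
open scoped NumberField

namespace Fermat.Agent.LT.Reduction

variable {F : Type*} [Field F] [NumberField F] [NumberField.IsTotallyComplex F]

omit [NumberField.IsTotallyComplex F] in
/-- Powers of the height below the square are integrable on Siegel sets. -/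
theorem integrableOn_siegel_height {U : Level F} {α : ℝ} (hα : α < 2) (R : Finset (GLFin F))
    (A B : ℝ) {b : ℝ} (hb : 0 < b) :
    IntegrableOn (fun y => height y ^ α) (siegel U R A B b) (yVol U) := by
  rw [← integrable_indicator_iff (measurableSet_siegel R A B b)]
  exact integrable_height_rpow hα R A B hb

omit [NumberField.IsTotallyComplex F] in
/-- Siegel sets have finite volume. -/
theorem yVol_siegel_lt_top (U : Level F) (R : Finset (GLFin F)) (A B : ℝ) {b : ℝ} (hb : 0 < b) :
    yVol U (siegel U R A B b) < ⊤ := by
  have h : IntegrableOn (fun _ : Y U => (1 : ℝ)) (siegel U R A B b) (yVol U) := by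
    simpa using integrableOn_siegel_height (U := U) two_pos R A B hb
  exact ((integrableOn_const_iff).mp h).resolve_left (by simp)

/-- Every level has a measurable partition of unity of finite mass. -/
theorem exists_partitionOfUnity (U : Level F) :
    ∃ P : PartitionOfUnity U, Measurable P.weight ∧ Integrable P.weight (yVol U) ∧
      ∀ y, P.weight y ≤ 1 := by
  obtain ⟨R, A, B, b, P, -, hm, hle, hint⟩ := exists_partition_integrable U
  exact ⟨P, hm, hint, fun y => (hle y).trans (Set.indicator_le_self' (fun _ _ => zero_le_one) y)⟩

end Fermat.Agent.LT.Reduction
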