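import Fermat.Agent.LT.Adele
import Mathlib.NumberTheory.Padics.RingHoms
import Mathlib.RingTheory.Ideal.Quotient.Operations
import Mathlib.RingTheory.DedekindDomain.Basic
import Mathlib.RingTheory.Ideal.Quotient.HasFiniteQuotients

/-!
# Integral finite adeles

Approximation `A_f = F + N Ô`, the identity `F ∩ Ô = 𝓞 F`, common denominators of finitely many
finite adeles and residues modulo a positive integer.
-/

set_option autoImplicit false

open scoped TensorProduct NumberField

namespace Fermat.Agent.LT.Reduction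

open NumberField

/-- Division with integral remainder in `ℤ̂`. -/
theorem exists_int_add_mul (N : ℕ) (hN : 0 < N) (z : Zhat) :
    ∃ (k : ℤ) (w : Zhat), z = (k : Zhat) + (N : Zhat) * w := by
  induction N using Nat.recOnMul generalizing z with
  | zero => omega
  | one => exact ⟨0, z, by simp⟩
  | prime p hp =>
    let q : Nat.Primes := ⟨p, hp⟩
    have : Fact p.Prime := ⟨hp⟩
    obtain ⟨k, hk⟩ : ∃ k : ℤ, (p : ℤ_[(q : ℕ)]) ∣ z q - k := by
      obtain ⟨c, hc⟩ := Ideal.mem_span_singleton.mp (PadicInt.appr_spec 1 (z q))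
      exact ⟨(PadicInt.appr (z q) 1 : ℤ), c, by simpa using hc⟩
    have hdvd : ∀ r : Nat.Primes, (p : ℤ_[(r : ℕ)]) ∣ z r - k := by
      intro r
      by_cases h : r = q
      · subst h; exact hk
      · refine IsUnit.dvd ?_
        have hco : (r : ℕ).Coprime p :=
          (Nat.coprime_primes r.2 hp).mpr fun e => h (Subtype.ext e)
        rw [← map_natCast (algebraMap ℕ ℤ_[(r : ℕ)])]
        rw [PadicInt.isUnit_iff]
        refine le_antisymm (PadicInt.norm_le_one _) (not_lt.mp fun hlt => ?_)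
        simp only [map_natCast] at hlt
        have hd : ((r : ℕ) : ℤ) ∣ (p : ℤ) :=
          (PadicInt.norm_int_lt_one_iff_dvd (p : ℤ)).mp (by simpa using hlt)
        exact r.2.ne_one (Nat.eq_one_of_dvd_coprimes hco dvd_rfl (Int.natCast_dvd_natCast.mp hd))
    choose w hw using hdvd
    refine ⟨k, w, funext fun r => ?_⟩
    simp only [Pi.add_apply, Pi.intCast_apply, Pi.mul_apply, Pi.natCast_apply, ← hw r]
    ring
  | mul a b ha hb =>
    rcases Nat.eq_zero_or_pos a with rfl | ha0
    · simp at hN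
    rcases Nat.eq_zero_or_pos b with rfl | hb0
    · simp at hN
    obtain ⟨k, w, rfl⟩ := ha ha0 z
    obtain ⟨k', w', rfl⟩ := hb hb0 w
    exact ⟨k + a * k', w', by push_cast; ring⟩

variable {F : Type*} [Field F] [NumberField F]

omit [NumberField F] in
/-- The diagonal embedding is `a ↦ a ⊗ 1`. -/
theorem finIncl_apply (a : F) : finIncl F a = a ⊗ₜ (1 : Zhat) := rfl

/-- Integers of `F` are integral adeles. -/
theorem finIncl_mem_of_isIntegral (a : 𝓞 F) : finIncl F (a : F) ∈ integralAdele F :=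
  tmul_mem_integralAdele a 1

/-- Every rational element is an integral one divided by a positive integer. -/
theorem exists_natCast_mul_eq (a : F) : ∃ N : ℕ, 0 < N ∧ ∃ o : 𝓞 F, (N : F) * a = o := by
  obtain ⟨x, ⟨y, hy⟩, h⟩ := IsLocalization.exists_mk'_eq (nonZeroDivisors (𝓞 F)) a
  have hy0 : y ≠ 0 := nonZeroDivisors.ne_zero hy
  have hne : Ideal.span {y} ≠ ⊥ := by simpa using hy0
  obtain ⟨z, hz0, hz⟩ : ∃ z : ℤ, z ≠ 0 ∧ (z : 𝓞 F) ∈ Ideal.span {y} := by
    have : Ideal.comap (algebraMap ℤ (𝓞 F)) (Ideal.span {y}) ≠ ⊥ :=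
      Ideal.comap_ne_bot_of_integral_mem hy0 (Ideal.mem_span_singleton_self y)
        (Algebra.IsIntegral.isIntegral y)
    obtain ⟨z, hz, hz0⟩ := Submodule.exists_mem_ne_zero_of_ne_bot this
    exact ⟨z, hz0, by simpa using hz⟩
  obtain ⟨c, hc⟩ := Ideal.mem_span_singleton.mp hz
  have key : (z : F) * a = ((c * x : 𝓞 F) : F) := by
    rw [← h, IsFractionRing.mk'_eq_div]
    have : ((z : 𝓞 F) : F) = ((y * c : 𝓞 F) : F) := by rw [hc]
    have hyF : (algebraMap (𝓞 F) F) y ≠ 0 := by simpa using hy0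
    rw [show (z : F) = algebraMap (𝓞 F) F (y * c) by simpa using this]
    rw [map_mul, mul_div_assoc']
    rw [show ((c * x : 𝓞 F) : F) = algebraMap (𝓞 F) F c * algebraMap (𝓞 F) F x from map_mul _ _ _]
    field_simp
  refine ⟨z.natAbs, Int.natAbs_pos.mpr hz0, ?_⟩
  rcases Int.natAbs_eq z with hz' | hz'
  · exact ⟨c * x, by rw [← key]; nth_rw 2 [hz']; simp⟩
  · refine ⟨-(c * x), ?_⟩
    rw [show ((-(c * x) : 𝓞 F) : F) = -((c * x : 𝓞 F) : F) from map_neg _ _, ← key]
    nth_rw 2 [hz']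
    simp

/-- `A_f = F + M Ô`. -/
theorem exists_finIncl_add (M : ℕ) (hM : 0 < M) (x : FinAdele F) :
    ∃ (a : F) (o : FinAdele F), o ∈ integralAdele F ∧ x = finIncl F a + (M : FinAdele F) * o := by
  induction x using TensorProduct.induction_on with
  | zero => exact ⟨0, 0, zero_mem _, by simp⟩
  | tmul a z =>
    obtain ⟨N, hN, o, ho⟩ := exists_natCast_mul_eq a
    obtain ⟨k, w, rfl⟩ := exists_int_add_mul (N * M) (Nat.mul_pos hN hM) z
    refine ⟨(k : F) * a, (o : F) ⊗ₜ w, tmul_mem_integralAdele o w, ?_⟩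
    rw [TensorProduct.tmul_add, finIncl_apply]
    congr 1
    · rw [show (k : Zhat) = k • (1 : Zhat) by simp, ← TensorProduct.smul_tmul, zsmul_eq_mul]
    · have h1 : ((N * M : ℕ) : Zhat) * w = (N * M : ℕ) • w := by rw [nsmul_eq_mul]
      have h2 : (M : FinAdele F) * ((o : F) ⊗ₜ w) = M • ((o : F) ⊗ₜ w : FinAdele F) := by
        rw [nsmul_eq_mul]
      rw [h1, h2, ← TensorProduct.smul_tmul, TensorProduct.smul_tmul', ← ho, nsmul_eq_mul,
        nsmul_eq_mul]
      push_cast
      ring_nf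
  | add x y hx hy =>
    obtain ⟨a, o, ho, rfl⟩ := hx
    obtain ⟨b, p, hp, rfl⟩ := hy
    exact ⟨a + b, o + p, add_mem ho hp, by rw [map_add]; ring⟩

/-- Coefficient of an adele on the integral basis, at the component `p`. -/
noncomputable def coordAt (i : Module.Free.ChooseBasisIndex ℤ (𝓞 F)) (p : Nat.Primes) :
    FinAdele F →ₗ[ℤ] ℚ_[(p : ℕ)] :=
  TensorProduct.lift
    { toFun := fun a =>
        { toFun := fun z => (((integralBasis F).repr a i : ℚ) : ℚ_[(p : ℕ)]) * (z p : ℚ_[(p : ℕ)])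
          map_add' := fun z z' => by simp [mul_add]
          map_smul' := fun n z => by simp [zsmul_eq_mul, mul_left_comm] }
      map_add' := fun a b => by ext z; simp [add_mul]
      map_smul' := fun n a => by
        ext z
        rw [RingHom.id_apply, LinearMap.smul_apply]
        have h : (integralBasis F).repr ((n : F) * a) i =
            (n : ℚ) * (integralBasis F).repr a i := by
          rw [← zsmul_eq_mul, ← Int.cast_smul_eq_zsmul ℚ n a, map_smul]
          rfl
        simp only [LinearMap.coe_mk, AddHom.coe_mk, zsmul_eq_mul]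
        rw [h, Rat.cast_mul, Rat.cast_intCast]
        ring }

/-- `coordAt` on pure tensors. -/
theorem coordAt_tmul (i : Module.Free.ChooseBasisIndex ℤ (𝓞 F)) (p : Nat.Primes) (a : F)
    (z : Zhat) : coordAt i p (a ⊗ₜ z) =
      (((integralBasis F).repr a i : ℚ) : ℚ_[(p : ℕ)]) * (z p : ℚ_[(p : ℕ)]) := rfl

/-- Integers of `F` have integral coordinates. -/
theorem integralBasis_repr_integer (i : Module.Free.ChooseBasisIndex ℤ (𝓞 F)) (o : 𝓞 F) :
    (integralBasis F).repr (o : F) i = ((RingOfIntegers.basis F).repr o i : ℚ) := by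
  simp

/-- Integral adeles have `p`-integral coordinates. -/
theorem norm_coordAt_le (i : Module.Free.ChooseBasisIndex ℤ (𝓞 F)) (p : Nat.Primes)
    {x : FinAdele F} (hx : x ∈ integralAdele F) : ‖coordAt i p x‖ ≤ 1 := by
  obtain ⟨y, rfl⟩ := hx
  induction y using TensorProduct.induction_on with
  | zero => simp
  | tmul o z =>
    change ‖coordAt i p ((o : F) ⊗ₜ z)‖ ≤ 1
    rw [coordAt_tmul, integralBasis_repr_integer, Rat.cast_intCast, norm_mul]
    exact mul_le_one₀ (Padic.norm_int_le_one _) (norm_nonneg _) (z p).2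
  | add a b ha hb =>
    rw [map_add, map_add]
    exact (Padic.nonarchimedean _ _).trans (max_le ha hb)

/-- `F ∩ Ô = 𝓞 F`. -/
theorem exists_integer_of_finIncl_mem {a : F} (ha : finIncl F a ∈ integralAdele F) :
    ∃ o : 𝓞 F, (o : F) = a := by
  have hint : ∀ i, ∃ n : ℤ, (integralBasis F).repr a i = n := by
    intro i
    set q := (integralBasis F).repr a i with hq
    refine ⟨q.num, (Rat.den_eq_one_iff q).mp ?_ |>.symm⟩
    by_contra hden
    obtain ⟨p, hp, hpd⟩ := Nat.exists_prime_and_dvd hden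
    have : Fact p.Prime := ⟨hp⟩
    have h := norm_coordAt_le i ⟨p, hp⟩ ha
    rw [finIncl_apply, coordAt_tmul, ← hq] at h
    rw [show (((1 : Zhat) ⟨p, hp⟩ : ℤ_[p]) : ℚ_[p]) = 1 from rfl, mul_one] at h
    have hnum : ¬ (p : ℤ) ∣ q.num := fun hd => hp.ne_one
      (Nat.eq_one_of_dvd_coprimes q.reduced (Int.natCast_dvd.mp hd) hpd)
    have h1 : ‖(q.num : ℚ_[p])‖ = 1 :=
      le_antisymm (Padic.norm_int_le_one _) (not_lt.mp fun h => hnum
        ((Padic.norm_intCast_lt_one_iff.mp h)))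
    have h2 : ‖((q.den : ℤ) : ℚ_[p])‖ < 1 :=
      (Padic.norm_intCast_lt_one_iff).mpr (Int.natCast_dvd_natCast.mpr hpd)
    change ‖(q : ℚ_[p])‖ ≤ 1 at h
    rw [Rat.cast_def, norm_div, h1] at h
    have h3 : 0 < ‖(q.den : ℚ_[p])‖ := norm_pos_iff.mpr (Nat.cast_ne_zero.mpr q.den_ne_zero)
    rw [div_le_one h3] at h
    exact absurd h (not_le.mpr (by simpa using h2))
  choose n hn using hint
  refine ⟨∑ i, n i • RingOfIntegers.basis F i, ?_⟩
  conv_rhs => rw [← (integralBasis F).sum_repr a]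
  simp only [map_sum, hn, integralBasis_apply, zsmul_eq_mul, Rat.smul_def,
    Rat.cast_intCast, map_mul, map_intCast]

/-- Every adele has a denominator. -/
theorem exists_natCast_mul_mem (x : FinAdele F) :
    ∃ N : ℕ, 0 < N ∧ (N : FinAdele F) * x ∈ integralAdele F := by
  obtain ⟨a, o, ho, rfl⟩ := exists_finIncl_add 1 one_pos x
  obtain ⟨N, hN, b, hb⟩ := exists_natCast_mul_eq a
  refine ⟨N, hN, ?_⟩
  rw [mul_add]
  refine add_mem ?_ (mul_mem (natCast_mem _ _) (mul_mem (natCast_mem _ _) ho))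
  rw [← map_natCast (finIncl F), ← map_mul, hb]
  exact finIncl_mem_of_isIntegral b

/-- Finitely many finite adeles have a common denominator. -/
theorem exists_denominator {ι : Type*} [Finite ι] (x : ι → FinAdele F) :
    ∃ N : ℕ, 0 < N ∧ ∀ i, (N : FinAdele F) * x i ∈ integralAdele F := by
  classical
  cases nonempty_fintype ι
  choose N hN hx using fun i => exists_natCast_mul_mem (x i)
  refine ⟨∏ i, N i, Finset.prod_pos fun i _ => hN i, fun i => ?_⟩
  obtain ⟨c, hc⟩ := Finset.dvd_prod_of_mem N (Finset.mem_univ i)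
  rw [hc, Nat.cast_mul, mul_comm (N i : FinAdele F), mul_assoc]
  exact mul_mem (natCast_mem _ _) (hx i)

/-- `Ô = 𝓞 F + N Ô`. -/
theorem exists_integer_add (N : ℕ) (hN : 0 < N) {x : FinAdele F} (hx : x ∈ integralAdele F) :
    ∃ (o : 𝓞 F) (y : FinAdele F), y ∈ integralAdele F ∧
      x = finIncl F (o : F) + (N : FinAdele F) * y := by
  obtain ⟨a, y, hy, rfl⟩ := exists_finIncl_add N hN x
  have : finIncl F a ∈ integralAdele F := by
    simpa using sub_mem hx (mul_mem (natCast_mem (integralAdele F) N) hy)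
  obtain ⟨o, rfl⟩ := exists_integer_of_finIncl_mem this
  exact ⟨o, y, hy, rfl⟩

/-- `Ô / N Ô` is finite. -/
theorem exists_residue (N : ℕ) (hN : 0 < N) :
    ∃ (κ : Type) (_ : Finite κ) (cls : FinAdele F → κ), ∀ x y, x ∈ integralAdele F →
      y ∈ integralAdele F → cls x = cls y →
      ∃ z ∈ integralAdele F, x = y + (N : FinAdele F) * z := by
  classical
  let I : Ideal (𝓞 F) := Ideal.span {(N : 𝓞 F)}
  have hI : I ≠ ⊥ := by simp [I, Nat.pos_iff_ne_zero.mp hN]
  have : Finite (𝓞 F ⧸ I) := Ring.HasFiniteQuotients.finiteQuotient hI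
  obtain ⟨m, ⟨e⟩⟩ := Finite.exists_equiv_fin (𝓞 F ⧸ I)
  let rep : FinAdele F → 𝓞 F := fun x =>
    if hx : x ∈ integralAdele F then (exists_integer_add N hN hx).choose else 0
  refine ⟨Fin m, inferInstance, fun x => e (Ideal.Quotient.mk I (rep x)), fun x y hx hy h => ?_⟩
  have hxy := Ideal.mem_span_singleton.mp (Ideal.Quotient.eq.mp (e.injective h))
  obtain ⟨c, hc⟩ := hxy
  obtain ⟨u, hu, hxu⟩ := (exists_integer_add N hN hx).choose_spec
  obtain ⟨v, hv, hyv⟩ := (exists_integer_add N hN hy).choose_spec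
  simp only [rep, hx, hy, dif_pos] at hc
  refine ⟨finIncl F (c : F) + u - v, sub_mem (add_mem (finIncl_mem_of_isIntegral c) hu) hv, ?_⟩
  rw [sub_eq_iff_eq_add'] at hc
  conv_lhs => rw [hxu]
  conv_rhs => rw [hyv]
  rw [hc]
  simp only [map_add, map_mul, map_natCast]
  ring

end Fermat.Agent.LT.Reduction
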