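import Fermat.Agent.LT.Reduction.Finite
import Fermat.Agent.LT.H3.Measure

/-!
# The partition of unity of a Siegel set

For a set `S` meeting every orbit of `GL₂(F)` in finitely many translates, the weight of a point
is the normalised indicator of `S`; it gives a measurable partition of unity for the action of
`GL₂(F)` supported on `S`.
-/

set_option autoImplicit false

noncomputable section

open MeasureTheory
open scoped NumberField

namespace Fermat.Agent.LT.Reduction

open NumberField H3

variable {F : Type*} [Field F]

/-- The translates of `y` which lie in `S`. -/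
def translates [NumberField F] {U : Level F} (S : Set (Y U)) (y : Y U) : Set (PGLIndex F) :=
  {c | ∃ γ, (QuotientGroup.mk γ : PGLIndex F) = c ∧ γ • y ∈ S}

theorem countable_gl [NumberField F] : Countable (GL (Fin 2) F) := by
  have : Countable F := (Module.finBasis ℚ F).equivFun.injective.countable
  have : Countable (Matrix (Fin 2) (Fin 2) F) := inferInstanceAs (Countable (Fin 2 → Fin 2 → F))
  exact Units.val_injective.countable

/-- `PGL₂(F)` is countable. -/
theorem countable_pglIndex [NumberField F] : Countable (PGLIndex F) :=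
  have := countable_gl (F := F)
  Quotient.countable

variable [NumberField F] {U : Level F}

theorem mem_translates_iff {S : Set (Y U)} {y : Y U} {γ : GL (Fin 2) F} :
    (QuotientGroup.mk γ : PGLIndex F) ∈ translates S y ↔ γ • y ∈ S :=
  ⟨fun ⟨γ', h, h'⟩ => by rwa [smul_eq_of_mk_eq h] at h', fun h => ⟨γ, rfl, h⟩⟩

theorem translates_smul (S : Set (Y U)) (δ : GL (Fin 2) F) (y : Y U) :
    translates S (δ • y) =
      (fun c => c * ((QuotientGroup.mk δ : PGLIndex F))⁻¹) '' translates S y := by
  ext c
  obtain ⟨γ, rfl⟩ := QuotientGroup.mk_surjective c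
  rw [mem_translates_iff]
  refine ⟨fun h => ⟨QuotientGroup.mk (γ * δ), mem_translates_iff.mpr (by rwa [mul_smul]), ?_⟩, ?_⟩
  · simp
  · rintro ⟨c, hc, hcγ⟩
    rw [mul_inv_eq_iff_eq_mul] at hcγ
    rw [hcγ, ← QuotientGroup.mk_mul, mem_translates_iff, mul_smul] at hc
    exact hc

/-- `GL₂(A_f) / U` is countable. -/
theorem countable_cosets (U : Level F) : Countable (GLFin F ⧸ U.toSubgroup) := by
  obtain ⟨R, hR⟩ := exists_finite_reps U
  have := countable_gl (F := F)
  refine (Function.Surjective.countable (f := fun p : GL (Fin 2) F × R =>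
    (QuotientGroup.mk (glIncl F p.1 * p.2.1) : GLFin F ⧸ U.toSubgroup)) fun c => ?_)
  obtain ⟨g, rfl⟩ := QuotientGroup.mk_surjective c
  obtain ⟨β, -, r, hr, h⟩ := hR g
  refine ⟨(β⁻¹, ⟨r, hr⟩), ?_⟩
  show glIncl F β⁻¹ • (QuotientGroup.mk r : GLFin F ⧸ U.toSubgroup) = _
  rw [← h, map_inv]
  exact inv_smul_smul (glIncl F β) (QuotientGroup.mk g : GLFin F ⧸ U.toSubgroup)

/-- The weight attached to a set meeting each orbit finitely often. -/
def weight (S : Set (Y U)) : Y U → ℝ :=
  S.indicator fun y => ((translates S y).ncard : ℝ)⁻¹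

/-- The weight is nonnegative. -/
theorem weight_nonneg (S : Set (Y U)) (y : Y U) : 0 ≤ weight S y :=
  Set.indicator_nonneg (fun _ _ => inv_nonneg.mpr (Nat.cast_nonneg _)) y

/-- The weight is at most the indicator of the set. -/
theorem weight_le_indicator {S : Set (Y U)} (hS : ∀ y, (translates S y).Finite) (y : Y U) :
    weight S y ≤ S.indicator (fun _ => 1) y := by
  by_cases hz : y ∈ S
  swap; · simp [weight, hz]
  rw [weight, Set.indicator_of_mem hz, Set.indicator_of_mem hz]
  refine inv_le_one_of_one_le₀ ?_
  exact_mod_cast (Set.ncard_pos (hS y)).mpr ⟨QuotientGroup.mk 1,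
    mem_translates_iff.mpr (by rwa [one_smul])⟩

/-- The partition of unity of a set meeting each orbit in a nonempty finite set. -/
def partitionOfSet (S : Set (Y U)) (hfin : ∀ y, (translates S y).Finite)
    (hcov : ∀ y, ∃ γ : GL (Fin 2) F, γ • y ∈ S) : PartitionOfUnity U where
  weight := weight S
  nonneg := weight_nonneg S
  hasSum y s hs := by
    classical
    have hmem : ∀ c, s c • y ∈ S ↔ c ∈ translates S y := fun c => by
      rw [← mem_translates_iff, hs]
    have hval : ∀ c ∈ translates S y,
        weight S (s c • y) = ((translates S y).ncard : ℝ)⁻¹ := by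
      intro c hc
      rw [weight, Set.indicator_of_mem ((hmem c).mpr hc), translates_smul,
        Set.ncard_image_of_injective _ (mul_left_injective _)]
    have h : HasSum (fun c => weight S (s c • y))
        (∑ c ∈ (hfin y).toFinset, weight S (s c • y)) :=
      hasSum_sum_of_ne_finset_zero fun c hc => Set.indicator_of_notMem
        (fun h => hc ((hfin y).mem_toFinset.mpr ((hmem c).mp h))) _
    obtain ⟨γ, hγ⟩ := hcov y
    have hne : (translates S y).ncard ≠ 0 :=
      ((Set.ncard_pos (hfin y)).mpr ⟨_, mem_translates_iff.mpr hγ⟩).ne'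
    rw [Finset.sum_congr rfl fun c hc => hval c ((hfin y).mem_toFinset.mp hc), Finset.sum_const,
      ← Set.ncard_eq_toFinset_card _ (hfin y), nsmul_eq_mul,
      mul_inv_cancel₀ (Nat.cast_ne_zero.mpr hne)] at h
    exact h

@[simp] theorem partitionOfSet_weight (S : Set (Y U)) (hfin : ∀ y, (translates S y).Finite)
    (hcov : ∀ y, ∃ γ : GL (Fin 2) F, γ • y ∈ S) :
    (partitionOfSet S hfin hcov).weight = weight S := rfl

variable [MeasurableSpace (GLFin F ⧸ U.toSubgroup)]
  [DiscreteMeasurableSpace (GLFin F ⧸ U.toSubgroup)]

theorem measurable_smul_point (γ : GL (Fin 2) F) : Measurable fun y : Y U => γ • y := by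
  refine Measurable.prodMk (measurable_pi_lambda _ fun w => ?_) ?_
  · exact (continuous_smul_point _).measurable.comp ((measurable_pi_apply w).comp measurable_fst)
  · exact Measurable.of_discrete.comp measurable_snd

theorem measurableSet_siegelCond (A B b : ℝ) :
    MeasurableSet {P : InfinitePlace F → H3 | SiegelCond A B b P} := by
  have ht : ∀ w : InfinitePlace F, Measurable fun P : InfinitePlace F → H3 => tc (P w) := fun w =>
    continuous_tc.measurable.comp (measurable_pi_apply w)
  have hz : ∀ w : InfinitePlace F, Measurable fun P : InfinitePlace F → H3 => ‖zc (P w)‖ :=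
    fun w => (continuous_norm.comp continuous_zc).measurable.comp (measurable_pi_apply w)
  simp only [SiegelCond, Set.ofPred_forall, Set.ofPred_and]
  exact MeasurableSet.iInter fun w => (measurableSet_le measurable_const (ht w)).inter
    ((measurableSet_le (hz w) measurable_const).inter
      (MeasurableSet.iInter fun w' => measurableSet_le (ht w) ((ht w').const_mul B)))

/-- Siegel sets are measurable. -/
theorem measurableSet_siegel (R : Finset (GLFin F)) (A B b : ℝ) :
    MeasurableSet (siegel U R A B b) :=
  (measurable_fst (measurableSet_siegelCond A B b)).inter (measurable_snd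
    (MeasurableSet.of_discrete (s := {c : GLFin F ⧸ U.toSubgroup |
      ∃ r ∈ R, c = QuotientGroup.mk r})))

/-- The weight of a measurable set is measurable. -/
theorem measurable_weight {S : Set (Y U)} (hS : MeasurableSet S)
    (hfin : ∀ y, (translates S y).Finite) : Measurable (weight S) := by
  have := countable_pglIndex (F := F)
  refine Measurable.indicator ?_ hS
  refine (Measurable.inv ?_)
  refine Measurable.of_discrete.comp (g := (Nat.cast : ℕ → ℝ))
    (measurable_to_countable' fun k => ?_)
  have hrw : (fun y => (translates S y).ncard) ⁻¹' {k} =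
      ⋃ (t : Finset (PGLIndex F)) (_ : t.card = k), ⋂ c : PGLIndex F,
        {y | Quotient.out c • y ∈ S ↔ c ∈ t} := by
    ext y
    simp only [Set.mem_preimage, Set.mem_singleton_iff, Set.mem_iUnion, Set.mem_iInter,
      Set.mem_ofPred_eq, exists_prop]
    have hmem : ∀ c : PGLIndex F, (Quotient.out c : GL (Fin 2) F) • y ∈ S ↔ c ∈ translates S y :=
      fun c => by rw [← mem_translates_iff, QuotientGroup.out_eq']
    constructor
    · intro hk
      exact ⟨(hfin y).toFinset, by rw [← hk, Set.ncard_eq_toFinset_card _ (hfin y)],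
        fun c => by rw [hmem, Set.Finite.mem_toFinset]⟩
    · rintro ⟨t, ht, h⟩
      rw [show translates S y = ↑t from Set.ext fun c => by rw [← hmem, h]; rfl,
        Set.ncard_coe_finset, ht]
  rw [hrw]
  refine MeasurableSet.iUnion fun t => MeasurableSet.iUnion fun _ =>
    MeasurableSet.iInter fun c => ?_
  have hm : MeasurableSet ((fun y : Y U => (Quotient.out c : GL (Fin 2) F) • y) ⁻¹' S) :=
    measurable_smul_point _ hS
  by_cases hc : c ∈ t
  · rw [show {y : Y U | (Quotient.out c : GL (Fin 2) F) • y ∈ S ↔ c ∈ t} =
      (fun y : Y U => (Quotient.out c : GL (Fin 2) F) • y) ⁻¹' S from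
        Set.ext fun y => iff_true_right hc]
    exact hm
  · rw [show {y : Y U | (Quotient.out c : GL (Fin 2) F) • y ∈ S ↔ c ∈ t} =
      ((fun y : Y U => (Quotient.out c : GL (Fin 2) F) • y) ⁻¹' S)ᶜ from
        Set.ext fun y => iff_false_right hc]
    exact hm.compl

omit [MeasurableSpace (GLFin F ⧸ U.toSubgroup)]
  [DiscreteMeasurableSpace (GLFin F ⧸ U.toSubgroup)] in
/-- A partition of unity supported in a Siegel set. -/
theorem exists_partition [IsTotallyComplex F] (U : Level F) :
    ∃ (R : Finset (GLFin F)) (A B b : ℝ) (P : PartitionOfUnity U), 0 < b ∧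
      P.weight = weight (siegel U R A B b) ∧
        ∀ y, P.weight y ≤ (siegel U R A B b).indicator (fun _ => 1) y := by
  obtain ⟨R, A, B, b, hb, hcov⟩ := exists_siegel U
  have hfin := fun y => finite_siegel_translates U R A B b hb y
  exact ⟨R, A, B, b, partitionOfSet _ hfin hcov, hb, rfl, weight_le_indicator hfin⟩

end Fermat.Agent.LT.Reduction
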