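import Fermat.Agent.LT.Reduction.Siegel

/-!
# Separation of cusps and finiteness of translates into Siegel sets

Two points of high height related by `γ ∈ GL₂(F)` force `γ` to be upper triangular; consequently
only finitely many classes in `PGL₂(F)` move a given point into a Siegel set.
-/

set_option autoImplicit false

open scoped NumberField Matrix

namespace Fermat.Agent.LT.Reduction

open NumberField H3

variable {F : Type*} [Field F]

/-- Scalar matrices are central. -/
theorem scalarGlobal_comm (a : Fˣ) (g : GL (Fin 2) F) :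
    scalarGlobal F a * g = g * scalarGlobal F a := by
  ext : 1
  exact Matrix.scalar_commute (a : F) (fun r => mul_comm _ r) g.val

instance normal_range_scalarGlobal : (scalarGlobal F).range.Normal :=
  ⟨fun n hn g => by
    obtain ⟨a, rfl⟩ := hn
    exact ⟨a, by rw [← scalarGlobal_comm, mul_inv_cancel_right]⟩⟩

/-- Scalars disappear in `PGL₂(F)`. -/
theorem mk_scalarGlobal_mul (a : Fˣ) (g : GL (Fin 2) F) :
    (QuotientGroup.mk (scalarGlobal F a * g) : PGLIndex F) = QuotientGroup.mk g :=
  QuotientGroup.eq.mpr ⟨a⁻¹, by rw [scalarGlobal_comm, _root_.mul_inv_rev, map_inv]; group⟩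

/-- The action on `Y U` factors through `PGL₂(F)`. -/
theorem smul_eq_of_mk_eq [NumberField F] {U : Level F} {γ γ' : GL (Fin 2) F}
    (h : (QuotientGroup.mk γ : PGLIndex F) = QuotientGroup.mk γ') (y : Y U) : γ • y = γ' • y := by
  obtain ⟨a, ha⟩ := QuotientGroup.eq.mp h
  rw [show γ' = γ * scalarGlobal F a by rw [ha, mul_inv_cancel_left], mul_smul, scalarGlobal_smul]

variable [NumberField F] [IsTotallyComplex F]

/-- The heights of two translates in given finite cosets. -/
theorem exists_height_smul_le (U : Level F) (R : Finset (GLFin F)) :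
    ∃ C : ℝ, 1 ≤ C ∧ ∀ (γ : GL (Fin 2) F) (y : Y U),
      (∃ r ∈ R, y.2 = QuotientGroup.mk r) → (∃ r ∈ R, (γ • y).2 = QuotientGroup.mk r) →
      (γ.val 1 0 ≠ 0 → height y * height (γ • y) ≤ C) ∧
        (γ.val 1 0 = 0 → height (γ • y) ≤ C * height y) := by
  obtain ⟨M, hM, hnorm⟩ := exists_normalise_finset U R
  set n := Fintype.card (InfinitePlace F) with hn
  set m := (((M * M : ℕ) : ℝ)) ^ n with hm'
  have hm : 0 < m := pow_pos (Nat.cast_pos.mpr (by positivity)) _
  set m' := ((M : ℝ) ^ n)⁻¹ with hm''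
  have hm0 : 0 < m' := inv_pos.mpr (pow_pos (Nat.cast_pos.mpr hM) _)
  refine ⟨max 1 (m / m' ^ 2), le_max_left _ _, fun γ y hy hγy => ?_⟩
  obtain ⟨α, hi, hi', hαy⟩ := hnorm γ y hy hγy
  set G := scalarGlobal F α * γ with hG
  have hdet := (prod_det_bounds hM hi hi').2
  have hne : G.val.det ≠ 0 := ((Matrix.isUnit_iff_isUnit_det _).mp G.isUnit).ne_zero
  have hrow : ∀ j, G.val 1 j = (α : F) * γ.val 1 j := fun j => scalarGlobal_mul_apply α γ 1 j
  rw [← hαy, height, height]
  constructor
  · intro h10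
    have hc : G.val 1 0 ≠ 0 := by rw [hrow]; exact mul_ne_zero α.ne_zero h10
    obtain ⟨o, ho⟩ := hi 1 0
    rw [← Finset.prod_mul_distrib]
    refine le_trans (Finset.prod_le_prod (fun w _ => (mul_pos (tc_pos _) (tc_pos _)).le)
      (g := fun w => w G.val.det / w (G.val 1 0) ^ 2) fun w _ => ?_) ?_
    · have hw : 0 < w (G.val 1 0) := InfinitePlace.pos_iff.mpr hc
      have ht := tc_pos (y.1 w)
      have h := normSq_mul_tc_le (y.1 w) (w.embedding (G.val 1 0)) (w.embedding (G.val 1 1))
      rw [Complex.normSq_eq_norm_sq, InfinitePlace.norm_embedding_eq] at h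
      rw [tc_smul_fst, mul_div_assoc', div_le_div_iff₀ (lt_of_lt_of_le (by positivity) h)
        (by positivity)]
      nlinarith [mul_le_mul_of_nonneg_left h (apply_nonneg w G.val.det)]
    · rw [Finset.prod_div_distrib, Finset.prod_pow]
      exact le_trans (div_le_div₀ hm.le hdet (by positivity)
        (pow_le_pow_left₀ hm0.le (inv_pow_le_prod hc hM ho) 2)) (le_max_right _ _)
  · intro h10
    have hc : G.val 1 0 = 0 := by rw [hrow, h10, mul_zero]
    have hd : G.val 1 1 ≠ 0 := fun h => hne (by rw [Matrix.det_fin_two, h, hc]; ring)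
    obtain ⟨o, ho⟩ := hi 1 1
    have hform : ∀ w : InfinitePlace F,
        tc ((G • y).1 w) = w G.val.det / w (G.val 1 1) ^ 2 * tc (y.1 w) := by
      intro w
      rw [tc_smul_fst, hc, map_zero, rowForm_zero_left, Complex.normSq_eq_norm_sq,
        InfinitePlace.norm_embedding_eq, div_div_eq_mul_div, div_mul_eq_mul_div]
    rw [Finset.prod_congr rfl fun w _ => hform w, Finset.prod_mul_distrib, Finset.prod_div_distrib,
      Finset.prod_pow]
    refine mul_le_mul_of_nonneg_right ?_ (Finset.prod_nonneg fun w _ => (tc_pos _).le)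
    exact le_trans (div_le_div₀ hm.le hdet (by positivity)
      (pow_le_pow_left₀ hm0.le (inv_pow_le_prod hd hM ho) 2)) (le_max_right _ _)

/-- At most one line of large height: translates of large height differ by upper triangular
elements. -/
theorem exists_upper_of_height (U : Level F) (R : Finset (GLFin F)) :
    ∃ C : ℝ, 1 ≤ C ∧ ∀ (γ : GL (Fin 2) F) (y : Y U),
      (∃ r ∈ R, y.2 = QuotientGroup.mk r) → (∃ r ∈ R, (γ • y).2 = QuotientGroup.mk r) →
      C < height y → C < height (γ • y) → IsUpper γ := by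
  obtain ⟨C, hC, h⟩ := exists_height_smul_le U R
  refine ⟨C, hC, fun γ y hy hγy h1 h2 => ?_⟩
  by_contra h10
  have := (h γ y hy hγy).1 h10
  nlinarith [mul_lt_mul'' h1 h2 (by linarith) (by linarith)]

omit [NumberField F] [IsTotallyComplex F] in
theorem IntBy.units_mul {M : ℕ} (ε : (𝓞 F)ˣ) {A : Matrix (Fin 2) (Fin 2) F} (h : IntBy M A) :
    IntBy M (((ε : 𝓞 F) : F) • A) := fun i j => by
  obtain ⟨o, ho⟩ := h i j
  exact ⟨(ε : 𝓞 F) * o, by push_cast [ho]; simp [mul_left_comm]⟩

/-- Only finitely many translates of a point lie in a Siegel set. -/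
theorem finite_siegel_translates (U : Level F) (R : Finset (GLFin F)) (A B b : ℝ) (hb : 0 < b)
    (y : Y U) :
    {c : PGLIndex F | ∃ γ, (QuotientGroup.mk γ : PGLIndex F) = c ∧
      γ • y ∈ siegel U R A B b}.Finite := by
  classical
  obtain ⟨g, hg⟩ := QuotientGroup.mk_surjective y.2
  set R' := insert g R
  obtain ⟨C, hC, hheight⟩ := exists_height_smul_le U R'
  obtain ⟨M, hM, hnorm⟩ := exists_normalise_finset U R'
  obtain ⟨Bu, hBu, hunit⟩ := exists_unit_balance (F := F) 1 one_pos
  set n := Fintype.card (InfinitePlace F) with hn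
  have hh : 0 < height y := height_pos y
  set H := C * (height y + (height y)⁻¹)
  set up := H / b ^ (n - 1)
  set D := Real.exp (2 * (Bu + Real.log (M * M : ℕ)))
  set Q := D / b + D * (A ^ 2 + up ^ 2) / b
  set E := ∑ w : InfinitePlace F, (Real.sqrt (Q / tc (y.1 w)) +
    (Real.sqrt (Q * tc (y.1 w)) + Real.sqrt (Q / tc (y.1 w)) * ‖zc (y.1 w)‖))
  set S := {x : F | (∃ o : 𝓞 F, (o : F) = (M : F) * x) ∧ ∀ w : InfinitePlace F, w x ≤ E}
  have hS : S.Finite := finite_bounded hM E
  have hfin : {G : GL (Fin 2) F | ∀ i j, G.val i j ∈ S}.Finite := by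
    have h2 : (Set.pi Set.univ fun _ : Fin 2 × Fin 2 => S).Finite := Set.Finite.pi fun _ => hS
    refine Set.Finite.of_finite_image (f := fun G : GL (Fin 2) F => fun p : Fin 2 × Fin 2 =>
      G.val p.1 p.2) (h2.subset ?_) fun G _ G' _ h => ?_
    · rintro _ ⟨G, hG, rfl⟩ p -
      exact hG p.1 p.2
    · exact Units.ext (Matrix.ext fun i j => congrFun h (i, j))
  refine (hfin.image fun G => (QuotientGroup.mk G : PGLIndex F)).subset ?_
  rintro _ ⟨γ, rfl, hS', hγr⟩
  have hy : ∃ r ∈ R', y.2 = QuotientGroup.mk r := ⟨g, Finset.mem_insert_self _ _, hg.symm⟩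
  have hγy : ∃ r ∈ R', (γ • y).2 = QuotientGroup.mk r := by
    obtain ⟨r, hr, h⟩ := hγr
    exact ⟨r, Finset.mem_insert_of_mem hr, h⟩
  have hH : height (γ • y) ≤ H := by
    have h := hheight γ y hy hγy
    by_cases h10 : γ.val 1 0 = 0
    · exact (h.2 h10).trans (mul_le_mul_of_nonneg_left
        (le_add_of_nonneg_right (inv_pos.mpr hh).le) (by linarith))
    · refine le_trans ?_ (mul_le_mul_of_nonneg_left
        (le_add_of_nonneg_left hh.le : (height y)⁻¹ ≤ _) (by linarith))
      rw [← div_eq_mul_inv, le_div_iff₀ hh, mul_comm]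
      exact h.1 h10
  have hup : ∀ w, tc ((γ • y).1 w) ≤ up := by
    intro w
    rw [le_div_iff₀ (pow_pos hb _)]
    refine le_trans ?_ hH
    rw [height, ← Finset.mul_prod_erase _ _ (Finset.mem_univ w)]
    refine mul_le_mul_of_nonneg_left ?_ (tc_pos _).le
    rw [hn, ← Finset.card_univ, ← Finset.card_erase_of_mem (Finset.mem_univ w), ← Finset.prod_const]
    exact Finset.prod_le_prod (fun _ _ => hb.le) fun w' _ => (hS' w').1
  obtain ⟨α, hi, hi', hαy⟩ := hnorm γ y hy hγy
  set G₀ := scalarGlobal F α * γ with hG₀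
  have hd0 : G₀.val.det ≠ 0 := ((Matrix.isUnit_iff_isUnit_det _).mp G₀.isUnit).ne_zero
  have hdpos : ∀ w : InfinitePlace F, 0 < w G₀.val.det := fun w => InfinitePlace.pos_iff.mpr hd0
  obtain ⟨ε, -, hbal⟩ := hunit fun w => Real.log (w G₀.val.det) / 2
  set e : F := ((ε : 𝓞 F) : F) with he
  have he0 : e ≠ 0 := by simp [he]
  set G := scalarGlobal F (Units.mk0 e he0) * G₀ with hG
  have hGval : G.val = e • G₀.val := by
    rw [hG, Units.val_mul, scalarGlobal_val, Matrix.smul_mul, Matrix.one_mul, Units.val_mk0]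
  have hGy : G • y = γ • y := by rw [hG, mul_smul, scalarGlobal_smul, hαy]
  have hGmk : (QuotientGroup.mk G : PGLIndex F) = QuotientGroup.mk γ := by
    rw [hG, mk_scalarGlobal_mul, hG₀, mk_scalarGlobal_mul]
  have hdetG : ∀ w : InfinitePlace F, w G.val.det ≤ D := by
    intro w
    rw [hGval, Matrix.det_smul, Fintype.card_fin, map_mul, map_pow]
    have hwe : 0 < w e := InfinitePlace.pos_iff.mpr he0
    rw [← Real.log_le_iff_le_exp (by have := hdpos w; positivity),
      Real.log_mul (by positivity) (hdpos w).ne', Real.log_pow]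
    have h1 := (abs_le.mp (hbal w)).2
    beta_reduce at h1
    have hsum : (∑ w' : InfinitePlace F, Real.log (w' G₀.val.det) / 2) / (n : ℝ) ≤
        Real.log (M * M : ℕ) := by
      have h2 := Real.log_le_log (Finset.prod_pos fun w _ => hdpos w) (prod_det_bounds hM hi hi').2
      rw [Real.log_prod fun w _ => (hdpos w).ne', Real.log_pow] at h2
      have hn0 : (0 : ℝ) < n := Nat.cast_pos.mpr Fintype.card_pos
      have hlog : 0 ≤ Real.log (M * M : ℕ) := Real.log_natCast_nonneg _
      rw [← Finset.sum_div, div_le_iff₀ hn0]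
      nlinarith
    push_cast at hsum ⊢
    linarith
  have hD : 0 < D := Real.exp_pos _
  have hrow : ∀ (i : Fin 2) (w : InfinitePlace F),
      rowForm (y.1 w) (w.embedding (G.val i 0)) (w.embedding (G.val i 1)) ≤ Q := by
    intro i w
    obtain ⟨h1, h2, -⟩ := hS' w
    have ht := tc_pos ((γ • y).1 w)
    have h0 : 0 ≤ D / b := (div_pos hD hb).le
    have h0' : 0 ≤ D * (A ^ 2 + up ^ 2) / b :=
      div_nonneg (mul_nonneg hD.le (by positivity)) hb.le
    fin_cases i
    · have h := rowForm_top (glEmb F w G) (y.1 w)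
      rw [norm_det_glEmb, ← smul_fst, hGy] at h
      refine h.trans_le (le_trans ?_ (le_add_of_nonneg_left h0))
      rw [mul_div_assoc]
      refine mul_le_mul (hdetG w) ?_
        (div_nonneg (add_nonneg (Complex.normSq_nonneg _) (sq_nonneg _)) ht.le) hD.le
      refine div_le_div₀ (by positivity) ?_ hb h1
      rw [Complex.normSq_eq_norm_sq]
      exact add_le_add (pow_le_pow_left₀ (norm_nonneg _) h2 2)
        (pow_le_pow_left₀ ht.le (hup w) 2)
    · refine le_trans ?_ (le_add_of_nonneg_right h0')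
      have h := tc_smul_fst G y w
      rw [hGy] at h
      have hpos : 0 < w G.val.det := InfinitePlace.pos_iff.mpr
        ((Matrix.isUnit_iff_isUnit_det _).mp G.isUnit).ne_zero
      have hrf : 0 < rowForm (y.1 w) (w.embedding (G.val 1 0)) (w.embedding (G.val 1 1)) :=
        rowForm_bottom_pos (glEmb F w G) (y.1 w)
      show rowForm (y.1 w) (w.embedding (G.val 1 0)) (w.embedding (G.val 1 1)) ≤ D / b
      rw [eq_div_iff hrf.ne'] at h
      rw [le_div_iff₀ hb]
      nlinarith [mul_le_mul_of_nonneg_left h1 hrf.le, hdetG w]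
  refine ⟨G, fun i j => ⟨?_, fun w => ?_⟩, hGmk⟩
  · rw [hGval]; exact hi.units_mul ε i j
  · rw [← InfinitePlace.norm_embedding_eq]
    refine le_trans ?_ (Finset.single_le_sum (fun w _ => by positivity) (Finset.mem_univ w))
    fin_cases j
    · exact (norm_left_le (hrow i w)).trans (le_add_of_nonneg_right (by positivity))
    · exact (norm_right_le (hrow i w)).trans (le_add_of_nonneg_left (by positivity))

end Fermat.Agent.LT.Reduction
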