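import Fermat.Agent.LT.H3.Coord

/-!
# Heights of translates in hyperbolic three-space

For `g ∈ GL₂(ℂ)` and a point `P` of hyperbolic three-space, the height of `g • P` is governed by
the positive quadratic form `rowForm P` evaluated at the bottom row of `g` (`tc_smul`); bounds on
this form bound both entries of a row.
-/

set_option autoImplicit false

open Matrix
open scoped ComplexConjugate ComplexOrder

namespace Fermat.Agent.LT.Reduction

open H3

/-- The value at the row vector `(c, d)` of the Hermitian form of `P`. -/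
noncomputable def rowForm (P : H3) (c d : ℂ) : ℝ :=
  (Complex.normSq (c * zc P + d) + Complex.normSq c * tc P ^ 2) / tc P

theorem row_mul_mat (P : H3) (c d : ℂ) :
    c * P.mat 0 0 * conj c + c * P.mat 0 1 * conj d + d * P.mat 1 0 * conj c +
      d * P.mat 1 1 * conj d = (rowForm P c d : ℂ) := by
  have ht : (tc P : ℂ) ≠ 0 := Complex.ofReal_ne_zero.mpr (tc_pos P).ne'
  conv_lhs => rw [← pt_coord P, mat_pt _ (tc_pos P)]
  simp only [of_apply, cons_val', cons_val_zero, cons_val_one, cons_val_fin_one]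
  rw [rowForm]
  push_cast [Complex.normSq_eq_conj_mul_self, map_add, map_mul]
  field_simp
  ring

theorem smul_mat_diag (g : GL (Fin 2) ℂ) (P : H3) (i : Fin 2) :
    (g • P).mat i i = (((‖g.val.det‖)⁻¹ * rowForm P (g.val i 0) (g.val i 1) : ℝ) : ℂ) := by
  rw [H3.smul_mat, Complex.ofReal_mul, ← row_mul_mat]
  simp only [Matrix.smul_apply, Matrix.mul_apply, Fin.sum_univ_two, Matrix.conjTranspose_apply,
    smul_eq_mul, Complex.star_def]
  ring

/-- The form is positive at the bottom row of an invertible matrix. -/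
theorem rowForm_bottom_pos (g : GL (Fin 2) ℂ) (P : H3) :
    0 < rowForm P (g.val 1 0) (g.val 1 1) := by
  have h := mat_one_one_pos (g • P)
  rw [smul_mat_diag, Complex.ofReal_re] at h
  exact pos_of_mul_pos_right h (inv_pos.mpr (norm_det_pos g)).le

/-- The height of a translate: `tc (g • P)` in terms of `rowForm` of the bottom row of `g`. -/
theorem tc_smul (g : GL (Fin 2) ℂ) (P : H3) :
    tc (g • P) = ‖g.val.det‖ / rowForm P (g.val 1 0) (g.val 1 1) := by
  rw [tc, smul_mat_diag, Complex.ofReal_re, _root_.mul_inv_rev, inv_inv, div_eq_mul_inv, mul_comm]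

/-- The form at the top row, in terms of the translated point. -/
theorem rowForm_top (g : GL (Fin 2) ℂ) (P : H3) :
    rowForm P (g.val 0 0) (g.val 0 1) =
      ‖g.val.det‖ * ((Complex.normSq (zc (g • P)) + tc (g • P) ^ 2) / tc (g • P)) := by
  have h := smul_mat_diag g P 0
  rw [← pt_coord (g • P), mat_pt _ (tc_pos _)] at h
  simp only [of_apply, cons_val', cons_val_zero, cons_val_fin_one] at h
  have hn := (norm_det_pos g).ne'
  have h' : (Complex.normSq (zc (g • P)) + tc (g • P) ^ 2) / tc (g • P) =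
      (‖g.val.det‖)⁻¹ * rowForm P (g.val 0 0) (g.val 0 1) := by exact_mod_cast h
  rw [h', ← mul_assoc, mul_inv_cancel₀ hn, one_mul]

/-- The form dominates `|c|² t`. -/
theorem normSq_mul_tc_le (P : H3) (c d : ℂ) : Complex.normSq c * tc P ≤ rowForm P c d := by
  have ht := tc_pos P
  rw [rowForm, le_div_iff₀ ht]
  nlinarith [Complex.normSq_nonneg (c * zc P + d)]

/-- The form at `(0, d)`. -/
theorem rowForm_zero_left (P : H3) (d : ℂ) : rowForm P 0 d = Complex.normSq d / tc P := by
  simp [rowForm]

theorem rowForm_nonneg (P : H3) (c d : ℂ) : 0 ≤ rowForm P c d :=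
  le_trans (mul_nonneg (Complex.normSq_nonneg c) (tc_pos P).le) (normSq_mul_tc_le P c d)

/-- A bound on `c` from a bound on the form at `(c, d)`. -/
theorem norm_left_le {P : H3} {c d : ℂ} {Q : ℝ} (h : rowForm P c d ≤ Q) :
    ‖c‖ ≤ Real.sqrt (Q / tc P) := by
  have ht := tc_pos P
  rw [Real.le_sqrt (norm_nonneg _) (div_nonneg (le_trans (rowForm_nonneg P c d) h) ht.le),
    le_div_iff₀ ht, ← Complex.normSq_eq_norm_sq]
  exact le_trans (normSq_mul_tc_le P c d) h

/-- A bound on `d` from a bound on the form at `(c, d)`. -/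
theorem norm_right_le {P : H3} {c d : ℂ} {Q : ℝ} (h : rowForm P c d ≤ Q) :
    ‖d‖ ≤ Real.sqrt (Q * tc P) + Real.sqrt (Q / tc P) * ‖zc P‖ := by
  have ht := tc_pos P
  have h1 : ‖c * zc P + d‖ ≤ Real.sqrt (Q * tc P) := by
    rw [Real.le_sqrt (norm_nonneg _) (mul_nonneg (le_trans (rowForm_nonneg P c d) h) ht.le),
      ← Complex.normSq_eq_norm_sq]
    rw [rowForm, div_le_iff₀ ht] at h
    nlinarith [Complex.normSq_nonneg c, sq_nonneg (tc P),
      mul_nonneg (Complex.normSq_nonneg c) (sq_nonneg (tc P))]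
  calc ‖d‖ = ‖(c * zc P + d) - c * zc P‖ := by rw [add_sub_cancel_left]
    _ ≤ ‖c * zc P + d‖ + ‖c * zc P‖ := norm_sub_le _ _
    _ ≤ _ := by
      rw [norm_mul]
      exact add_le_add h1 (mul_le_mul_of_nonneg_right (norm_left_le h) (norm_nonneg _))

end Fermat.Agent.LT.Reduction
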