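import Fermat.Agent.LT.Reduction.Integral
import Mathlib.NumberTheory.NumberField.Units.DirichletTheorem
import Mathlib.NumberTheory.NumberField.CanonicalEmbedding.Basic
import Mathlib.NumberTheory.NumberField.InfinitePlace.TotallyRealComplex
import Mathlib.RingTheory.Ideal.Quotient.HasFiniteQuotients

/-!
# Units, translations and pigeonhole in a totally complex field

The integral basis embeds as a real basis of `ℂ^places`; translations by integers bring any point
into a box, units balance any tuple of positive reals with given product, a pigeonhole argument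
gives small integral solutions, and bounded elements with bounded denominator are finite in
number.
-/

set_option autoImplicit false

open scoped NumberField

namespace Fermat.Agent.LT.Reduction

open NumberField

variable {F : Type*} [Field F] [NumberField F] [IsTotallyComplex F]

omit [NumberField F] in
/-- All places of a totally complex field are complex. -/
theorem mult_eq_two (w : InfinitePlace F) : w.mult = 2 := by
  rw [InfinitePlace.mult,
    if_neg (InfinitePlace.not_isReal_iff_isComplex.mpr (IsTotallyComplex.isComplex w))]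

variable (F) in
/-- `F ⊗ ℝ = ℂ^places`. -/
noncomputable def placesEquiv : (InfinitePlace F → ℂ) ≃ₗ[ℝ] mixedEmbedding.mixedSpace F where
  toFun z := (fun w => (z w.1).re, fun w => z w.1)
  invFun m w := m.2 ⟨w, IsTotallyComplex.isComplex w⟩
  map_add' z z' := by ext <;> simp
  map_smul' a z := by ext <;> simp
  left_inv z := rfl
  right_inv m := by
    refine Prod.ext (funext fun w => ?_) (funext fun w => rfl)
    exact absurd w.2 (InfinitePlace.not_isReal_iff_isComplex.mpr (IsTotallyComplex.isComplex w.1))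

variable (F) in
/-- The basis of `ℂ^places` given by an integral basis. -/
noncomputable def embBasis :
    Module.Basis (Module.Free.ChooseBasisIndex ℤ (𝓞 F)) ℝ (InfinitePlace F → ℂ) :=
  (mixedEmbedding.latticeBasis F).map (placesEquiv F).symm

theorem embBasis_apply (i : Module.Free.ChooseBasisIndex ℤ (𝓞 F)) (w : InfinitePlace F) :
    embBasis F i w = w.embedding (RingOfIntegers.basis F i : F) := by
  simp [embBasis, placesEquiv, integralBasis_apply]

theorem embedding_sum_smul (n : Module.Free.ChooseBasisIndex ℤ (𝓞 F) → ℤ) (w : InfinitePlace F) :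
    w.embedding ((∑ i, n i • RingOfIntegers.basis F i : 𝓞 F) : F) =
      (∑ i, (n i : ℝ) • embBasis F i) w := by
  simp only [Finset.sum_apply, Pi.smul_apply, embBasis_apply, map_sum, zsmul_eq_mul,
    Complex.real_smul, Complex.ofReal_intCast]
  refine Finset.sum_congr rfl fun i _ => ?_
  simp

omit [IsTotallyComplex F] in
theorem norm_sum_smul_le {ι : Type*} [Fintype ι] (v : ι → InfinitePlace F → ℂ) (c : ι → ℝ)
    {K : ℝ} (hK : 0 ≤ K) (hc : ∀ i, |c i| ≤ K) (w : InfinitePlace F) :
    ‖(∑ i, c i • v i) w‖ ≤ K * ∑ i, ‖v i‖ := by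
  rw [Finset.sum_apply, Finset.mul_sum]
  refine (norm_sum_le _ _).trans (Finset.sum_le_sum fun i _ => ?_)
  rw [Pi.smul_apply, norm_smul, Real.norm_eq_abs]
  exact mul_le_mul (hc i) (norm_le_pi_norm _ w) (norm_nonneg _) hK

/-- Every point of `ℂ^places` is moved into a fixed box by `M 𝓞`. -/
theorem exists_translate (M : ℕ) (hM : 0 < M) :
    ∃ A : ℝ, 0 ≤ A ∧ ∀ z : InfinitePlace F → ℂ, ∃ u : 𝓞 F, ∀ w : InfinitePlace F,
      ‖z w + (M : ℂ) * w.embedding (u : F)‖ ≤ A := by
  classical
  let b := embBasis F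
  refine ⟨(M : ℝ) * ∑ i, ‖b i‖, by positivity, fun z => ?_⟩
  refine ⟨∑ i, (-⌊b.repr z i / M⌋) • RingOfIntegers.basis F i, fun w => ?_⟩
  rw [embedding_sum_smul]
  have hz : z w + (M : ℂ) * (∑ i, ((-⌊b.repr z i / M⌋ : ℤ) : ℝ) • b i) w =
      (∑ i, (b.repr z i - M * ⌊b.repr z i / M⌋) • b i) w := by
    have e : z w = (∑ i, b.repr z i • b i) w := congrFun (b.sum_repr z).symm w
    rw [e]
    simp only [Finset.sum_apply, Pi.smul_apply, Finset.mul_sum, ← Finset.sum_add_distrib,
      Complex.real_smul]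
    refine Finset.sum_congr rfl fun i _ => ?_
    push_cast
    ring
  rw [hz]
  refine norm_sum_smul_le _ _ (Nat.cast_nonneg M) (fun i => ?_) w
  have hMR : (0 : ℝ) < M := Nat.cast_pos.mpr hM
  have h1 : (M : ℝ) * ⌊b.repr z i / M⌋ ≤ b.repr z i := by
    have := mul_le_mul_of_nonneg_left (Int.floor_le (b.repr z i / M)) hMR.le
    rwa [mul_div_cancel₀ _ hMR.ne'] at this
  have h2 : b.repr z i < (M : ℝ) * (⌊b.repr z i / M⌋ + 1) := by
    have := mul_lt_mul_of_pos_left (Int.lt_floor_add_one (b.repr z i / M)) hMR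
    rwa [mul_div_cancel₀ _ hMR.ne'] at this
  rw [abs_le]
  constructor <;> linarith

/-- Dirichlet's pigeonhole. -/
theorem exists_approx :
    ∃ C : ℝ, 0 < C ∧ ∀ (z : InfinitePlace F → ℂ) (T : ℝ), 0 < T → T ≤ 1 →
      ∃ a b : 𝓞 F, b ≠ 0 ∧ ∀ w : InfinitePlace F,
        ‖w.embedding (b : F)‖ ≤ C / Real.sqrt T ∧
          ‖w.embedding (a : F) - z w * w.embedding (b : F)‖ ≤ C * Real.sqrt T := by
  classical
  let e := embBasis F
  refine ⟨2 * (∑ i, ‖e i‖) + 1, by positivity, fun z T hT hT1 => ?_⟩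
  have hS : 0 ≤ ∑ i, ‖e i‖ := by positivity
  have hsq : 0 < Real.sqrt T := Real.sqrt_pos.mpr hT
  have hsq1 : Real.sqrt T ≤ 1 := Real.sqrt_le_one.mpr hT1
  set K := ⌈(Real.sqrt T)⁻¹⌉₊ with hK
  have hKge : (Real.sqrt T)⁻¹ ≤ K := Nat.le_ceil _
  have hKlt : (K : ℝ) < (Real.sqrt T)⁻¹ + 1 := Nat.ceil_lt_add_one (inv_pos.mpr hsq).le
  have hKpos : 0 < K := Nat.ceil_pos.mpr (inv_pos.mpr hsq)
  let bOf : (Module.Free.ChooseBasisIndex ℤ (𝓞 F) → Fin (K + 1)) → 𝓞 F := fun n =>
    ∑ i, ((n i : ℕ) : ℤ) • RingOfIntegers.basis F i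
  let x : (Module.Free.ChooseBasisIndex ℤ (𝓞 F) → Fin (K + 1)) → InfinitePlace F → ℂ := fun n w =>
    z w * w.embedding (bOf n : F)
  let box : (Module.Free.ChooseBasisIndex ℤ (𝓞 F) → Fin (K + 1)) →
      Module.Free.ChooseBasisIndex ℤ (𝓞 F) → Fin K := fun n i =>
    ⟨⌊(K : ℝ) * Int.fract (e.repr (x n) i)⌋₊, (Nat.floor_lt
      (mul_nonneg (Nat.cast_nonneg K) (Int.fract_nonneg _))).mpr
        (mul_lt_of_lt_one_right (Nat.cast_pos.mpr hKpos) (Int.fract_lt_one _))⟩
  have hne : Nonempty (Module.Free.ChooseBasisIndex ℤ (𝓞 F)) := e.index_nonempty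
  obtain ⟨n, m, hnm, hbox⟩ := Fintype.exists_ne_map_eq_of_card_lt box (by
    simp only [Fintype.card_fun, Fintype.card_fin]
    exact Nat.pow_lt_pow_left (Nat.lt_succ_self K) Fintype.card_ne_zero)
  refine ⟨∑ i, (⌊e.repr (x n) i⌋ - ⌊e.repr (x m) i⌋) • RingOfIntegers.basis F i,
    bOf n - bOf m, ?_, fun w => ⟨?_, ?_⟩⟩
  · intro h
    apply hnm
    have h' : ∑ i, (((n i : ℕ) : ℤ) - (m i : ℕ)) • RingOfIntegers.basis F i = 0 := by
      simpa [bOf, sub_smul, Finset.sum_sub_distrib] using h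
    funext i
    have := Fintype.linearIndependent_iff.mp (RingOfIntegers.basis F).linearIndependent _ h' i
    exact Fin.ext (by omega)
  · have hb : w.embedding ((bOf n - bOf m : 𝓞 F) : F) =
        (∑ i, ((((n i : ℕ) : ℤ) - (m i : ℕ) : ℤ) : ℝ) • e i) w := by
      rw [← embedding_sum_smul]
      simp [bOf, sub_smul, Finset.sum_sub_distrib]
    rw [hb]
    refine (norm_sum_smul_le _ _ (Nat.cast_nonneg K) (fun i => ?_) w).trans ?_
    · have h1 := (n i).2
      have h2 := (m i).2
      rw [← Int.cast_abs, ← Int.cast_natCast (R := ℝ) K, Int.cast_le, abs_le]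
      omega
    · rw [le_div_iff₀ hsq]
      have : (K : ℝ) * Real.sqrt T ≤ 2 := by
        have := mul_le_mul_of_nonneg_right hKlt.le hsq.le
        rw [add_mul, inv_mul_cancel₀ hsq.ne', one_mul] at this
        linarith
      nlinarith
  · have hx : (fun w : InfinitePlace F => z w * w.embedding ((bOf n - bOf m : 𝓞 F) : F)) =
        x n - x m := by
      funext w
      simp [x, mul_sub]
    have ha : w.embedding ((∑ i, (⌊e.repr (x n) i⌋ - ⌊e.repr (x m) i⌋) •
          RingOfIntegers.basis F i : 𝓞 F) : F) - z w * w.embedding ((bOf n - bOf m : 𝓞 F) : F) =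
        (∑ i, (((⌊e.repr (x n) i⌋ - ⌊e.repr (x m) i⌋ : ℤ) : ℝ) -
          (e.repr (x n) i - e.repr (x m) i)) • e i) w := by
      rw [embedding_sum_smul, congrFun hx w]
      have e' : (x n - x m) w = (∑ i, e.repr (x n - x m) i • e i) w :=
        congrFun (e.sum_repr (x n - x m)).symm w
      rw [e', ← Pi.sub_apply, ← Finset.sum_sub_distrib]
      refine congrFun (Finset.sum_congr rfl fun i _ => ?_) w
      rw [sub_smul, map_sub, Finsupp.sub_apply]
    rw [ha]
    refine (norm_sum_smul_le _ _ hsq.le (fun i => ?_) w).trans (by nlinarith)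
    have hb := congrArg Fin.val (congrFun hbox i)
    simp only [box] at hb
    have hKR : (0 : ℝ) < K := Nat.cast_pos.mpr hKpos
    have h1 := Int.fract_nonneg (e.repr (x n) i)
    have h2 := Int.fract_nonneg (e.repr (x m) i)
    have f1 := Nat.floor_le (mul_nonneg hKR.le h1)
    have f2 := Nat.floor_le (mul_nonneg hKR.le h2)
    have g1 := Nat.lt_floor_add_one ((K : ℝ) * Int.fract (e.repr (x n) i))
    have g2 := Nat.lt_floor_add_one ((K : ℝ) * Int.fract (e.repr (x m) i))
    rw [hb] at f1 g1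
    have h3 : |Int.fract (e.repr (x m) i) - Int.fract (e.repr (x n) i)| * K ≤ 1 := by
      rw [← abs_of_pos hKR, ← abs_mul, abs_le]
      constructor <;> nlinarith
    have h4 : (1 : ℝ) ≤ Real.sqrt T * K := by
      rwa [inv_le_iff_one_le_mul₀' hsq] at hKge
    have h5 : (((⌊e.repr (x n) i⌋ - ⌊e.repr (x m) i⌋ : ℤ) : ℝ) -
          (e.repr (x n) i - e.repr (x m) i)) =
        Int.fract (e.repr (x m) i) - Int.fract (e.repr (x n) i) := by
      rw [Int.fract, Int.fract]; push_cast; ring
    rw [h5]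
    nlinarith [abs_nonneg (Int.fract (e.repr (x m) i) - Int.fract (e.repr (x n) i))]

/-- Balancing by units congruent to one. -/
theorem exists_unit_balance (M : ℕ) (hM : 0 < M) :
    ∃ B : ℝ, 0 ≤ B ∧ ∀ x : InfinitePlace F → ℝ, ∃ ε : (𝓞 F)ˣ, (M : 𝓞 F) ∣ ((ε : 𝓞 F) - 1) ∧
      ∀ w : InfinitePlace F, |x w + Real.log (w (ε : F)) -
        (∑ w', x w') / Fintype.card (InfinitePlace F)| ≤ B := by
  classical
  have hI : Ideal.span {(M : 𝓞 F)} ≠ ⊥ := by simp [hM.ne']
  have : Finite (𝓞 F ⧸ Ideal.span {(M : 𝓞 F)}) := Ring.HasFiniteQuotients.finiteQuotient hI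
  set π := Units.map (Ideal.Quotient.mk (Ideal.span {(M : 𝓞 F)})).toMonoidHom
  set K := Nat.card (𝓞 F ⧸ Ideal.span {(M : 𝓞 F)})ˣ with hK
  have hKpos : (0 : ℝ) < K := Nat.cast_pos.mpr Nat.card_pos
  have hdvd : ∀ u : (𝓞 F)ˣ, (M : 𝓞 F) ∣ ((u ^ K : (𝓞 F)ˣ) : 𝓞 F) - 1 := fun u => by
    have h := congrArg Units.val (pow_card_eq_one' (x := π u))
    rw [← map_pow] at h
    refine Ideal.mem_span_singleton.mp (Ideal.Quotient.eq.mp ?_)
    rw [map_one]
    exact h
  let b := (Units.basisUnitLattice F).ofZLatticeBasis ℝ (Units.unitLattice F)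
  have hb : ∀ i, b i = Units.logEmbedding F (Additive.ofMul (Units.fundSystem F i)) := fun i => by
    rw [Units.logEmbedding_fundSystem]
    exact (Units.basisUnitLattice F).ofZLatticeBasis_apply ℝ _ i
  set S := (K : ℝ) * ∑ i, ‖b i‖ with hS
  set n := (Fintype.card (InfinitePlace F) : ℝ) with hn
  have hS0 : 0 ≤ S := by positivity
  refine ⟨S + n * S, by positivity, fun x => ?_⟩
  set avg := (∑ w', x w') / n with havg
  let y : Units.dirichletUnitTheorem.logSpace F := fun w => 2 * (avg - x w.1)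
  let k : Fin (Units.rank F) → ℤ := fun i => ⌊b.repr y i / K⌋
  let u := ∏ i, Units.fundSystem F i ^ k i
  refine ⟨u ^ K, hdvd u, ?_⟩
  have hlog : Units.logEmbedding F (Additive.ofMul (u ^ K)) =
      ∑ i, ((K : ℝ) * k i) • b i := by
    simp only [u, ofMul_pow, map_nsmul, ofMul_prod, map_sum, ofMul_zpow, map_zsmul,
      Finset.smul_sum]
    refine Finset.sum_congr rfl fun i _ => ?_
    rw [← hb, mul_smul, Nat.cast_smul_eq_nsmul, Int.cast_smul_eq_zsmul]
  have hdiff : ‖Units.logEmbedding F (Additive.ofMul (u ^ K)) - y‖ ≤ S := by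
    rw [hlog]
    conv_lhs => rw [← b.sum_repr y]
    rw [← Finset.sum_sub_distrib, hS, Finset.mul_sum]
    refine (norm_sum_le _ _).trans (Finset.sum_le_sum fun i _ => ?_)
    rw [← sub_smul, norm_smul, Real.norm_eq_abs]
    refine mul_le_mul_of_nonneg_right ?_ (norm_nonneg _)
    have h1 : (K : ℝ) * k i ≤ b.repr y i := by
      have := mul_le_mul_of_nonneg_left (Int.floor_le (b.repr y i / K)) hKpos.le
      rwa [mul_div_cancel₀ _ hKpos.ne'] at this
    have h2 : b.repr y i < (K : ℝ) * (k i + 1) := by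
      have := mul_lt_mul_of_pos_left (Int.lt_floor_add_one (b.repr y i / K)) hKpos
      rwa [mul_div_cancel₀ _ hKpos.ne'] at this
    rw [abs_le]
    constructor <;> linarith
  set d : InfinitePlace F → ℝ := fun w =>
    x w + Real.log (w ((u ^ K : (𝓞 F)ˣ) : F)) - avg with hd
  have hne0 : ∀ w : InfinitePlace F, w ≠ Units.dirichletUnitTheorem.w₀ → |d w| ≤ S := by
    intro w hw
    have h1 := (norm_le_pi_norm (Units.logEmbedding F (Additive.ofMul (u ^ K)) - y)
      ⟨w, hw⟩).trans hdiff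
    rw [Pi.sub_apply, Units.dirichletUnitTheorem.logEmbedding_component, mult_eq_two,
      Real.norm_eq_abs] at h1
    have h2 : |(2 : ℝ) * d w| ≤ S := by
      refine le_trans (le_of_eq ?_) h1
      congr 1
      simp only [d, y]
      push_cast
      ring
    rw [abs_mul, abs_two] at h2
    linarith [abs_nonneg (d w)]
  have hcard : (0 : ℝ) < n := Nat.cast_pos.mpr Fintype.card_pos
  have hsum : ∑ w, d w = 0 := by
    have h1 := Units.sum_mult_mul_log (K := F) (u ^ K)
    simp only [mult_eq_two, ← Finset.mul_sum] at h1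
    simp only [d, Finset.sum_sub_distrib, Finset.sum_add_distrib, Finset.sum_const,
      Finset.card_univ, nsmul_eq_mul]
    rw [← hn, havg, mul_div_cancel₀ _ hcard.ne']
    push_cast at h1 ⊢
    linarith
  intro w
  change |d w| ≤ S + n * S
  by_cases hw : w = Units.dirichletUnitTheorem.w₀
  · subst hw
    rw [← Finset.add_sum_erase _ _ (Finset.mem_univ Units.dirichletUnitTheorem.w₀)] at hsum
    rw [eq_neg_of_add_eq_zero_left hsum, abs_neg]
    refine (Finset.abs_sum_le_sum_abs _ _).trans ?_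
    refine (Finset.sum_le_card_nsmul _ _ S fun v hv => hne0 v (Finset.ne_of_mem_erase hv)).trans ?_
    rw [nsmul_eq_mul]
    have hc : ((Finset.univ.erase (Units.dirichletUnitTheorem.w₀ (K := F))).card : ℝ) ≤ n := by
      rw [hn, ← Finset.card_univ]
      exact Nat.cast_le.mpr (Finset.card_le_card (Finset.subset_univ _))
    nlinarith
  · nlinarith [hne0 w hw, hcard]

/-- The product formula for units. -/
theorem prod_units_eq_one (ε : (𝓞 F)ˣ) : ∏ w : InfinitePlace F, w (ε : F) = 1 := by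
  have h := InfinitePlace.prod_eq_abs_norm (ε : F)
  simp only [mult_eq_two, Finset.prod_pow] at h
  rw [Units.norm, Rat.cast_one] at h
  exact (pow_eq_one_iff_of_nonneg (Finset.prod_nonneg fun w _ => apply_nonneg w _) two_ne_zero).mp h

/-- Nonzero elements with bounded denominator have bounded below norm. -/
theorem inv_pow_le_prod {x : F} (hx : x ≠ 0) {M : ℕ} (hM : 0 < M) {o : 𝓞 F}
    (ho : (o : F) = (M : F) * x) :
    ((M : ℝ) ^ Fintype.card (InfinitePlace F))⁻¹ ≤ ∏ w : InfinitePlace F, w x := by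
  have hMR : (0 : ℝ) < M := Nat.cast_pos.mpr hM
  have hMF : (M : F) ≠ 0 := Nat.cast_ne_zero.mpr hM.ne'
  have ho0 : (o : F) ≠ 0 := ho ▸ mul_ne_zero hMF hx
  have h := InfinitePlace.prod_eq_abs_norm (o : F)
  simp only [mult_eq_two, Finset.prod_pow, ← Algebra.coe_norm_int] at h
  have h1 : (1 : ℝ) ≤ (∏ w : InfinitePlace F, w (o : F)) ^ 2 := by
    rw [h]
    have : Algebra.norm ℤ o ≠ 0 := Algebra.norm_ne_zero_iff.mpr fun h0 => ho0 (by simp [h0])
    exact_mod_cast Int.one_le_abs this
  have hnn : 0 ≤ ∏ w : InfinitePlace F, w (o : F) := Finset.prod_nonneg fun w _ => apply_nonneg w _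
  have h2 : (1 : ℝ) ≤ ∏ w : InfinitePlace F, w (o : F) := by nlinarith
  have h3 : ∏ w : InfinitePlace F, w (o : F) =
      (M : ℝ) ^ Fintype.card (InfinitePlace F) * ∏ w : InfinitePlace F, w x := by
    simp only [ho, map_mul, Finset.prod_mul_distrib, InfinitePlace.coe_apply]
    congr 1
    rw [Finset.prod_congr rfl fun w _ => show w (M : F) = (M : ℝ) by
      rw [← InfinitePlace.norm_embedding_eq, map_natCast, Complex.norm_natCast]]
    simp
  rw [inv_le_iff_one_le_mul₀' (pow_pos hMR _), ← h3]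
  exact h2

omit [IsTotallyComplex F] in
/-- Finitely many elements with bounded denominator and bounded conjugates. -/
theorem finite_bounded {M : ℕ} (hM : 0 < M) (C : ℝ) :
    {x : F | (∃ o : 𝓞 F, (o : F) = (M : F) * x) ∧ ∀ w : InfinitePlace F, w x ≤ C}.Finite := by
  have hMF : (M : F) ≠ 0 := Nat.cast_ne_zero.mpr hM.ne'
  refine Set.Finite.of_finite_image (f := fun x => (M : F) * x) ?_
    (mul_right_injective₀ hMF).injOn
  refine (Embeddings.finite_of_norm_le F ℂ ((M : ℝ) * C)).subset ?_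
  rintro _ ⟨x, ⟨⟨o, ho⟩, hC⟩, rfl⟩
  refine ⟨by simpa [ho] using o.isIntegral_coe, fun φ => ?_⟩
  rw [map_mul, norm_mul, map_natCast, Complex.norm_natCast]
  refine mul_le_mul_of_nonneg_left ?_ (Nat.cast_nonneg M)
  exact (InfinitePlace.apply φ x).symm ▸ hC (InfinitePlace.mk φ)

end Fermat.Agent.LT.Reduction
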