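import Fermat.Agent.LT.Reduction.Classes
import Fermat.Agent.LT.Reduction.Coord
import Fermat.Agent.LT.Reduction.Units

/-!
# Siegel sets for `GL₂` over a totally complex field

We define the height of a point and the Siegel sets `siegel U R A B b`, show that the stabiliser
of a cusp balances the coordinates of a point, and that every point has a translate in one fixed
Siegel set (`exists_siegel`).
-/

set_option autoImplicit false

open scoped NumberField Matrix

namespace Fermat.Agent.LT.Reduction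

open NumberField H3

variable {F : Type*} [Field F] [NumberField F]

/-- A congruence element fixes a given finite coset. -/
theorem exists_stabilizer (U : Level F) (r : GLFin F) :
    ∃ M : ℕ, 0 < M ∧ ∀ γ : GL (Fin 2) F,
      (∀ i j, ∃ o : 𝓞 F, γ.val i j = (1 : Matrix (Fin 2) (Fin 2) F) i j + (M : F) * (o : F)) →
      (∀ i j, ∃ o : 𝓞 F, (γ⁻¹).val i j =
        (1 : Matrix (Fin 2) (Fin 2) F) i j + (M : F) * (o : F)) →
      glIncl F γ • (QuotientGroup.mk r : GLFin F ⧸ U.toSubgroup) = QuotientGroup.mk r := by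
  obtain ⟨N, hN, hU⟩ := U.exists_principal
  obtain ⟨d, hd, hdi⟩ := exists_denominator (fun p : Bool × Fin 2 × Fin 2 =>
    if p.1 then r.val p.2.1 p.2.2 else (r⁻¹).val p.2.1 p.2.2)
  refine ⟨N * (d * d), by positivity, fun γ h h' => ?_⟩
  have key : ∀ δ : GL (Fin 2) F, (∀ i j, ∃ o : 𝓞 F, δ.val i j =
      (1 : Matrix (Fin 2) (Fin 2) F) i j + ((N * (d * d) : ℕ) : F) * (o : F)) →
      ∀ i j, ∃ a ∈ integralAdele F, (r⁻¹ * glIncl F δ * r).val i j =
        (1 : Matrix (Fin 2) (Fin 2) (FinAdele F)) i j + (N : FinAdele F) * a := by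
    intro δ hδ i j
    choose o ho using hδ
    set O : Matrix (Fin 2) (Fin 2) (FinAdele F) := Matrix.of fun i j => finIncl F (o i j : F)
    have hval : (glIncl F δ).val =
        1 + ((N * (d * d) : ℕ) : FinAdele F) • O := by
      ext k l
      show finIncl F (δ.val k l) = _
      rw [ho, map_add, map_mul, map_natCast, Matrix.add_apply, Matrix.smul_apply, smul_eq_mul]
      congr 1
      simp [Matrix.one_apply, apply_ite (finIncl F)]
    refine ⟨((((d : FinAdele F) • (r⁻¹).val) * O) * ((d : FinAdele F) • r.val)) i j, ?_, ?_⟩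
    · rw [Matrix.mul_apply]
      refine sum_mem fun l _ => mul_mem ?_ ?_
      · rw [Matrix.mul_apply]
        refine sum_mem fun q _ => mul_mem ?_ (finIncl_mem_of_isIntegral _)
        simpa [Matrix.smul_apply] using hdi (false, i, q)
      · simpa using hdi (true, l, j)
    · rw [Units.val_mul, Units.val_mul, hval, Matrix.mul_add, Matrix.add_mul, Matrix.mul_one,
        ← Units.val_mul, inv_mul_cancel, Units.val_one, Matrix.add_apply]
      congr 1
      simp only [Matrix.mul_apply, Matrix.smul_apply, Fin.sum_univ_two, smul_eq_mul]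
      push_cast
      ring
  show (QuotientGroup.mk (glIncl F γ * r) : GLFin F ⧸ U.toSubgroup) = QuotientGroup.mk r
  refine ((QuotientGroup.eq).mpr ?_).symm
  rw [← mul_assoc]
  refine hU _ fun i j => ?_
  obtain ⟨a, ha, ha'⟩ := key γ h i j
  obtain ⟨b, hb, hb'⟩ := key γ⁻¹ h' i j
  refine ⟨a, ha, b, hb, ha', ?_⟩
  rw [← hb', show (r⁻¹ * glIncl F γ * r)⁻¹ = r⁻¹ * glIncl F γ⁻¹ * r by rw [map_inv]; group]

omit [NumberField F] in
/-- The entries of the image at an infinite place. -/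
theorem glEmb_apply (w : InfinitePlace F) (γ : GL (Fin 2) F) (i j : Fin 2) :
    (glEmb F w γ).val i j = w.embedding (γ.val i j) := rfl

omit [NumberField F] in
/-- The absolute value of the determinant at a place. -/
theorem norm_det_glEmb (w : InfinitePlace F) (γ : GL (Fin 2) F) :
    ‖(glEmb F w γ).val.det‖ = w γ.val.det := by
  rw [← InfinitePlace.norm_embedding_eq w, RingHom.map_det]
  rfl

/-- The product of the heights at all places. -/
noncomputable def height {U : Level F} (y : Y U) : ℝ := ∏ w, tc (y.1 w)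

/-- Heights are positive. -/
theorem height_pos {U : Level F} (y : Y U) : 0 < height y :=
  Finset.prod_pos fun _ _ => tc_pos _

/-- The height at a place of a translate. -/
theorem tc_smul_fst {U : Level F} (γ : GL (Fin 2) F) (y : Y U) (w : InfinitePlace F) :
    tc ((γ • y).1 w) = w γ.val.det /
      rowForm (y.1 w) (w.embedding (γ.val 1 0)) (w.embedding (γ.val 1 1)) := by
  rw [smul_fst, tc_smul, norm_det_glEmb]
  rfl

/-- The Siegel condition at the infinite places. -/
def SiegelCond (A B b : ℝ) (P : InfinitePlace F → H3) : Prop :=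
  ∀ w, b ≤ tc (P w) ∧ ‖zc (P w)‖ ≤ A ∧ ∀ w', tc (P w) ≤ B * tc (P w')

/-- A Siegel set. -/
def siegel (U : Level F) (R : Finset (GLFin F)) (A B b : ℝ) : Set (Y U) :=
  {y | SiegelCond A B b y.1 ∧ ∃ r ∈ R, y.2 = QuotientGroup.mk r}

variable [IsTotallyComplex F]

/-- Balancing the heights and reducing the horizontal coordinates. -/
theorem exists_balance (U : Level F) (r : GLFin F) :
    ∃ A B : ℝ, 0 ≤ A ∧ 1 ≤ B ∧ ∀ y : Y U, y.2 = QuotientGroup.mk r →
      ∃ γ : GL (Fin 2) F, (γ • y).2 = QuotientGroup.mk r ∧ height (γ • y) = height y ∧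
        ∀ w, ‖zc ((γ • y).1 w)‖ ≤ A ∧ ∀ w', tc ((γ • y).1 w) ≤ B * tc ((γ • y).1 w') := by
  obtain ⟨M, hM, hstab⟩ := exists_stabilizer U r
  obtain ⟨Bu, hBu, hunit⟩ := exists_unit_balance (F := F) M hM
  obtain ⟨A, hA, htr⟩ := exists_translate (F := F) M hM
  refine ⟨A, Real.exp (2 * Bu), hA, Real.one_le_exp (by linarith), fun y hy => ?_⟩
  obtain ⟨ε, ⟨o, ho⟩, hbal⟩ := hunit fun w => Real.log (tc (y.1 w))
  obtain ⟨u, hu⟩ := htr fun w => w.embedding ((ε : 𝓞 F) : F) * zc (y.1 w)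
  set e : F := ((ε : 𝓞 F) : F) with he
  have he' : e * ((↑ε⁻¹ : 𝓞 F) : F) = 1 := by
    rw [he, ← map_mul, Units.mul_inv, map_one]
  generalize he2 : ((↑ε⁻¹ : 𝓞 F) : F) = e' at he'
  have he0 : e ≠ 0 := left_ne_zero_of_mul_eq_one he'
  have hoF : e = 1 + (M : F) * (o : F) := by
    rw [he, eq_add_of_sub_eq' ho]
    push_cast
    rfl
  let γ : GL (Fin 2) F := Matrix.GeneralLinearGroup.mkOfDetNeZero
    !![e, (M : F) * (u : F); 0, 1] (by simpa [Matrix.det_fin_two] using he0)
  have hγ' : (γ⁻¹).val = !![e', -(e' * ((M : F) * (u : F))); 0, 1] := by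
    rw [Matrix.coe_units_inv]
    refine Matrix.inv_eq_left_inv ?_
    ext i j
    fin_cases i <;> fin_cases j <;> simp [γ, Matrix.mul_apply, Fin.sum_univ_two, mul_comm _ e, he']
  have hint : ∀ i j, ∃ o : 𝓞 F, γ.val i j =
      (1 : Matrix (Fin 2) (Fin 2) F) i j + (M : F) * (o : F) := by
    intro i j
    fin_cases i <;> fin_cases j
    · exact ⟨o, by simp [γ, hoF]⟩
    · exact ⟨u, by simp [γ]⟩
    · exact ⟨0, by simp [γ]⟩
    · exact ⟨0, by simp [γ]⟩
  have hint' : ∀ i j, ∃ o : 𝓞 F, (γ⁻¹).val i j =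
      (1 : Matrix (Fin 2) (Fin 2) F) i j + (M : F) * (o : F) := by
    intro i j
    rw [hγ']
    fin_cases i <;> fin_cases j
    · refine ⟨-(↑ε⁻¹ * o), ?_⟩
      rw [show ((-(↑ε⁻¹ * o) : 𝓞 F) : F) = -(e' * (o : F)) by rw [← he2]; push_cast; rfl]
      have := he'
      rw [hoF] at this
      simp
      linear_combination this
    · refine ⟨-(↑ε⁻¹ * u), ?_⟩
      rw [show ((-(↑ε⁻¹ * u) : 𝓞 F) : F) = -(e' * (u : F)) by rw [← he2]; push_cast; rfl]
      simp
      ring
    · exact ⟨0, by simp⟩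
    · exact ⟨0, by simp⟩
  have hem : ∀ w : InfinitePlace F, w.embedding e ≠ 0 := fun w => by simpa using he0
  have hfst : ∀ w : InfinitePlace F, (γ • y).1 w =
      pt (w.embedding e * zc (y.1 w) + (M : ℂ) * w.embedding (u : F)) (w e * tc (y.1 w)) := by
    intro w
    have hg : glEmb F w γ = affine (w.embedding e) ((M : ℂ) * w.embedding (u : F)) (hem w) := by
      ext i j
      rw [glEmb_apply]
      fin_cases i <;> fin_cases j <;> simp [γ, affine, map_natCast]
    rw [smul_fst, hg]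
    conv_lhs => rw [← pt_coord (y.1 w)]
    rw [affine_smul _ _ _ _ (tc_pos _), InfinitePlace.norm_embedding_eq]
  have hpos : ∀ w : InfinitePlace F, 0 < w e * tc (y.1 w) := fun w =>
    mul_pos (InfinitePlace.pos_iff.mpr he0) (tc_pos _)
  refine ⟨γ, ?_, ?_, fun w => ⟨?_, fun w' => ?_⟩⟩
  · rw [smul_snd, hy, hstab γ hint hint']
  · simp only [height, hfst, tc_pt _ (hpos _), Finset.prod_mul_distrib]
    rw [prod_units_eq_one ε, one_mul]
  · rw [hfst, zc_pt _ (hpos w)]
    exact hu w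
  · simp only [hfst, tc_pt _ (hpos _)]
    have hlog : ∀ v : InfinitePlace F, Real.log (v e * tc (y.1 v)) =
        Real.log (tc (y.1 v)) + Real.log (v e) := fun v => by
      rw [Real.log_mul (InfinitePlace.pos_iff.mpr he0).ne' (tc_pos _).ne', add_comm]
    rw [← Real.log_le_log_iff (hpos w) (mul_pos (Real.exp_pos _) (hpos w')),
      Real.log_mul (Real.exp_pos _).ne' (hpos w').ne', Real.log_exp, hlog, hlog]
    have h1 := abs_le.mp (hbal w)
    have h2 := abs_le.mp (hbal w')
    linarith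

omit [NumberField F] [IsTotallyComplex F] in
/-- A multiple of a denominator is a denominator. -/
theorem IntBy.mono {M M' : ℕ} {A : Matrix (Fin 2) (Fin 2) F} (h : IntBy M A) (hd : M ∣ M') :
    IntBy M' A := fun i j => by
  obtain ⟨k, rfl⟩ := hd
  obtain ⟨o, ho⟩ := h i j
  exact ⟨(k : 𝓞 F) * o, by push_cast [ho]; ring⟩

omit [IsTotallyComplex F] in
/-- Uniform form of `exists_normalise`. -/
theorem exists_normalise_finset (U : Level F) (R : Finset (GLFin F)) :
    ∃ M : ℕ, 0 < M ∧ ∀ (γ : GL (Fin 2) F) (y : Y U),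
      (∃ r ∈ R, y.2 = QuotientGroup.mk r) → (∃ r ∈ R, (γ • y).2 = QuotientGroup.mk r) →
      ∃ α : Fˣ, IntBy M (scalarGlobal F α * γ).val ∧
        IntBy M ((scalarGlobal F α * γ)⁻¹).val ∧ (scalarGlobal F α * γ) • y = γ • y := by
  choose M hM h using fun p : GLFin F × GLFin F => exists_normalise U p.1 p.2
  refine ⟨∏ p ∈ R ×ˢ R, M p, Finset.prod_pos fun p _ => hM p, ?_⟩
  rintro γ y ⟨r, hr, hy⟩ ⟨r', hr', hγy⟩
  rw [smul_snd, hy] at hγy
  obtain ⟨α, h1, h2⟩ := h (r, r') γ hγy
  have hd : M (r, r') ∣ ∏ p ∈ R ×ˢ R, M p :=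
    Finset.dvd_prod_of_mem _ (Finset.mem_product.mpr ⟨hr, hr'⟩)
  exact ⟨α, h1.mono hd, h2.mono hd, by rw [mul_smul, scalarGlobal_smul]⟩

omit [NumberField F] [IsTotallyComplex F] in
/-- Multiplying by a scalar matrix scales the entries. -/
theorem scalarGlobal_mul_apply (α : Fˣ) (γ : GL (Fin 2) F) (i j : Fin 2) :
    (scalarGlobal F α * γ).val i j = (α : F) * γ.val i j := by
  rw [Units.val_mul, scalarGlobal_val, Matrix.smul_mul, Matrix.one_mul, Matrix.smul_apply,
    smul_eq_mul]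

/-- Bounds for the determinant of a normalised element. -/
theorem prod_det_bounds {M : ℕ} (hM : 0 < M) {γ : GL (Fin 2) F} (h : IntBy M γ.val)
    (h' : IntBy M (γ⁻¹).val) :
    ((((M * M : ℕ) : ℝ)) ^ Fintype.card (InfinitePlace F))⁻¹ ≤
        ∏ w : InfinitePlace F, w γ.val.det ∧
      ∏ w : InfinitePlace F, w γ.val.det ≤
        (((M * M : ℕ) : ℝ)) ^ Fintype.card (InfinitePlace F) := by
  have key : ∀ δ : GL (Fin 2) F, IntBy M δ.val →
      ((((M * M : ℕ) : ℝ)) ^ Fintype.card (InfinitePlace F))⁻¹ ≤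
        ∏ w : InfinitePlace F, w δ.val.det := by
    intro δ hδ
    choose o ho using hδ
    refine inv_pow_le_prod ((Matrix.isUnit_iff_isUnit_det _).mp δ.isUnit).ne_zero
      (by positivity) (o := o 0 0 * o 1 1 - o 0 1 * o 1 0) ?_
    push_cast [ho, Matrix.det_fin_two]
    ring
  refine ⟨key γ h, ?_⟩
  have hdet : (γ⁻¹).val.det = γ.val.det⁻¹ := by
    rw [Matrix.coe_units_inv, Matrix.det_nonsing_inv, Ring.inverse_eq_inv']
  have := key γ⁻¹ h'
  simp only [hdet, map_inv₀, Finset.prod_inv_distrib] at this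
  exact (inv_le_inv₀ (by positivity) (Finset.prod_pos fun w _ => InfinitePlace.pos_iff.mpr
    ((Matrix.isUnit_iff_isUnit_det _).mp γ.isUnit).ne_zero)).mp this

/-- Every point has a translate of large height. -/
theorem exists_high (U : Level F) :
    ∃ (R : Finset (GLFin F)) (c : ℝ), 0 < c ∧ ∀ y : Y U, ∃ γ : GL (Fin 2) F,
      c ≤ height (γ • y) ∧ ∃ r ∈ R, (γ • y).2 = QuotientGroup.mk r := by
  obtain ⟨R, hR⟩ := exists_finite_reps U
  choose A B hA hB hbal using fun r : GLFin F => exists_balance U r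
  obtain ⟨C, hC, happ⟩ := exists_approx (F := F)
  obtain ⟨M, hM, hnorm⟩ := exists_normalise_finset U R
  set n := Fintype.card (InfinitePlace F) with hn
  set B0 := 1 + ∑ r ∈ R, B r
  have hB0 : 1 ≤ B0 := le_add_of_nonneg_right (Finset.sum_nonneg fun r _ => by linarith [hB r])
  set Q := C ^ 2 + C ^ 2 * B0 ^ 2
  have hQ : 0 < Q := by positivity
  set m := (((M * M : ℕ) : ℝ)) ^ n
  have hm : 0 < m := pow_pos (Nat.cast_pos.mpr (by positivity)) _
  set m' := ((M : ℝ) ^ n)⁻¹
  have hm' : 0 < m' := inv_pos.mpr (pow_pos (Nat.cast_pos.mpr hM) _)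
  refine ⟨R, min 1 (m' ^ 2 / m / Q ^ n), lt_min one_pos (by positivity), fun y => ?_⟩
  obtain ⟨g, hg⟩ := QuotientGroup.mk_surjective y.2
  obtain ⟨β, -, r, hr, hβ⟩ := hR g
  have hy1 : (β • y).2 = QuotientGroup.mk r := by rw [smul_snd, ← hg]; exact hβ
  obtain ⟨δ, hδ2, -, hδ⟩ := hbal r _ hy1
  set z := δ • β • y with hz
  suffices h : ∃ γ : GL (Fin 2) F, min 1 (m' ^ 2 / m / Q ^ n) ≤ height (γ • z) ∧
      ∃ r ∈ R, (γ • z).2 = QuotientGroup.mk r by
    obtain ⟨γ, h1, h2⟩ := h
    exact ⟨γ * δ * β, by rwa [mul_smul, mul_smul], by rwa [mul_smul, mul_smul]⟩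
  by_cases hbig : 1 ≤ height z
  · exact ⟨1, by rw [one_smul]; exact (min_le_left _ _).trans hbig, r, hr, by rw [one_smul, hδ2]⟩
  obtain ⟨w₀, -, hmin⟩ := Finset.exists_min_image Finset.univ (fun w => tc (z.1 w))
    Finset.univ_nonempty
  set T := tc (z.1 w₀) with hT
  have hTpos : 0 < T := tc_pos _
  have hT1 : T ≤ 1 := by
    by_contra hgt
    refine hbig (Finset.one_le_prod fun w hw => ?_)
    linarith [hmin w hw]
  have hTB : ∀ w, tc (z.1 w) ≤ B0 * T := fun w => ((hδ w).2 w₀).trans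
    (mul_le_mul_of_nonneg_right (le_add_of_nonneg_of_le zero_le_one
      (Finset.single_le_sum (fun r _ => by linarith [hB r]) hr)) hTpos.le)
  obtain ⟨a, b, hb, hab⟩ := happ (fun w => zc (z.1 w)) T hTpos hT1
  have hbF : (b : F) ≠ 0 := by simpa using hb
  have hsqT : Real.sqrt T ^ 2 = T := Real.sq_sqrt hTpos.le
  have hform : ∀ w : InfinitePlace F,
      rowForm (z.1 w) (-w.embedding (b : F)) (w.embedding (a : F)) ≤ Q := by
    intro w
    obtain ⟨hb', ha'⟩ := hab w
    have ht := tc_pos (z.1 w)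
    rw [rowForm, div_le_iff₀ ht, Complex.normSq_neg, Complex.normSq_eq_norm_sq,
      Complex.normSq_eq_norm_sq, neg_mul, neg_add_eq_sub, mul_comm (w.embedding (b : F))]
    have h1 : ‖w.embedding (a : F) - zc (z.1 w) * w.embedding (b : F)‖ ^ 2 ≤ C ^ 2 * T := by
      refine (pow_le_pow_left₀ (norm_nonneg _) ha' 2).trans ?_
      rw [mul_pow, hsqT]
    have h2 : ‖w.embedding (b : F)‖ ^ 2 ≤ C ^ 2 / T := by
      refine (pow_le_pow_left₀ (norm_nonneg _) hb' 2).trans ?_
      rw [div_pow, hsqT]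
    have h3 : T ≤ tc (z.1 w) := hmin w (Finset.mem_univ w)
    have h4 : ‖w.embedding (b : F)‖ ^ 2 * tc (z.1 w) ^ 2 ≤ C ^ 2 * B0 ^ 2 * T := by
      refine (mul_le_mul h2 (pow_le_pow_left₀ ht.le (hTB w) 2) (by positivity)
        (by positivity)).trans_eq ?_
      field_simp
    calc _ ≤ C ^ 2 * T + C ^ 2 * B0 ^ 2 * T := add_le_add h1 h4
      _ = Q * T := by ring
      _ ≤ Q * tc (z.1 w) := mul_le_mul_of_nonneg_left h3 hQ.le
  let γ₁ : GL (Fin 2) F := Matrix.GeneralLinearGroup.mkOfDetNeZero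
    !![0, (b : F)⁻¹; -(b : F), (a : F)] (by simp [Matrix.det_fin_two, hbF])
  obtain ⟨g', hg'⟩ := QuotientGroup.mk_surjective (γ₁ • z).2
  obtain ⟨β', hβu, r', hr', hβ'⟩ := hR g'
  have hy2 : ((β' * γ₁) • z).2 = QuotientGroup.mk r' := by
    rw [mul_smul, smul_snd, ← hg']; exact hβ'
  obtain ⟨α, hi, hi', hαz⟩ := hnorm (β' * γ₁) z ⟨r, hr, hδ2⟩ ⟨r', hr', hy2⟩
  set G := scalarGlobal F α * (β' * γ₁) with hG
  refine ⟨G, ?_, r', hr', by rw [hαz, hy2]⟩
  set s := (α : F) * β'.val 1 1 with hs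
  set p := (α : F) * β'.val 0 0 with hp
  have hu10 : β'.val 1 0 = 0 := hβu
  have h10 : G.val 1 0 = s * -(b : F) := by
    rw [hG, scalarGlobal_mul_apply, Units.val_mul, Matrix.mul_apply, Fin.sum_univ_two, hu10]
    simp [γ₁, hs, mul_assoc]
  have h11 : G.val 1 1 = s * (a : F) := by
    rw [hG, scalarGlobal_mul_apply, Units.val_mul, Matrix.mul_apply, Fin.sum_univ_two, hu10]
    simp [γ₁, hs, mul_assoc]
  have h00 : (a : F) * G.val 0 0 + (b : F) * G.val 0 1 = p := by
    rw [hG, scalarGlobal_mul_apply, scalarGlobal_mul_apply, Units.val_mul, Matrix.mul_apply,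
      Matrix.mul_apply, Fin.sum_univ_two, Fin.sum_univ_two]
    simp [γ₁, hp]
    field_simp
    ring
  have hdet : G.val.det = p * s := by
    rw [hG, Units.val_mul, Units.val_mul, Matrix.det_mul, Matrix.det_mul, scalarGlobal_val,
      Matrix.det_smul, Matrix.det_one, Matrix.det_fin_two β'.val, hu10]
    simp [γ₁, Matrix.det_fin_two, hbF, hp, hs]
    ring
  have hne : G.val.det ≠ 0 := ((Matrix.isUnit_iff_isUnit_det _).mp G.isUnit).ne_zero
  rw [hdet] at hne
  obtain ⟨hp0, hs0⟩ := mul_ne_zero_iff.mp hne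
  have hplow : m' ≤ ∏ w : InfinitePlace F, w p := by
    choose o ho using hi
    refine inv_pow_le_prod hp0 hM (o := a * o 0 0 + b * o 0 1) ?_
    push_cast [ho, ← h00]
    ring
  have hdet' : ∏ w : InfinitePlace F, w (p * s) ≤ m := by
    rw [← hdet]; exact (prod_det_bounds hM hi hi').2
  refine (min_le_right _ _).trans ?_
  have htc : ∀ w : InfinitePlace F, w p ^ 2 / w (p * s) / Q ≤ tc ((G • z).1 w) := by
    intro w
    rw [tc_smul_fst, h10, h11, hdet, map_mul w.embedding s, map_mul w.embedding s, map_neg,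
      map_mul w p s]
    have hwp : 0 < w p := InfinitePlace.pos_iff.mpr hp0
    have hws : 0 < w s := InfinitePlace.pos_iff.mpr hs0
    have hsc : rowForm (z.1 w) (w.embedding s * -w.embedding (b : F))
        (w.embedding s * w.embedding (a : F)) =
        w s ^ 2 * rowForm (z.1 w) (-w.embedding (b : F)) (w.embedding (a : F)) := by
      simp only [rowForm, mul_assoc, ← mul_add,
        Complex.normSq_eq_norm_sq, InfinitePlace.norm_embedding_eq, norm_mul]
      ring
    have hrf : 0 < rowForm (z.1 w) (-w.embedding (b : F)) (w.embedding (a : F)) := by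
      have hb0 : w.embedding (b : F) ≠ 0 := by simpa using hbF
      refine lt_of_lt_of_le (mul_pos ?_ (tc_pos _)) (normSq_mul_tc_le _ _ _)
      simpa using hb0
    rw [hsc, le_div_iff₀ (by positivity)]
    calc w p ^ 2 / (w p * w s) / Q *
          (w s ^ 2 * rowForm (z.1 w) (-w.embedding (b : F)) (w.embedding (a : F)))
        ≤ w p ^ 2 / (w p * w s) / Q * (w s ^ 2 * Q) := by
          gcongr; exact hform w
      _ = w p * w s := by field_simp
  refine le_trans ?_ (Finset.prod_le_prod (fun w _ => by positivity) fun w _ => htc w)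
  rw [Finset.prod_div_distrib, Finset.prod_div_distrib, Finset.prod_const, Finset.card_univ, ← hn,
    Finset.prod_pow]
  gcongr
  exact Finset.prod_pos fun w _ => InfinitePlace.pos_iff.mpr hne

/-- Siegel sets cover. -/
theorem exists_siegel (U : Level F) :
    ∃ (R : Finset (GLFin F)) (A B b : ℝ), 0 < b ∧
      ∀ y : Y U, ∃ γ : GL (Fin 2) F, γ • y ∈ siegel U R A B b := by
  obtain ⟨R, c, hc, hhigh⟩ := exists_high U
  choose A B hA hB hbal using fun r : GLFin F => exists_balance U r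
  set B0 := 1 + ∑ r ∈ R, B r
  have hB0 : 1 ≤ B0 := le_add_of_nonneg_right (Finset.sum_nonneg fun r _ => by linarith [hB r])
  refine ⟨R, ∑ r ∈ R, A r, B0, min c 1 / B0, by positivity, fun y => ?_⟩
  obtain ⟨γ, hγ, r, hr, hγr⟩ := hhigh y
  obtain ⟨δ, hδ2, hδh, hδ⟩ := hbal r _ hγr
  have hBr : B r ≤ B0 := le_add_of_nonneg_of_le zero_le_one
    (Finset.single_le_sum (fun r _ => by linarith [hB r]) hr)
  refine ⟨δ * γ, ?_, r, hr, by rw [mul_smul, hδ2]⟩
  rw [mul_smul]
  intro w
  have hrat : ∀ w', tc ((δ • γ • y).1 w') ≤ B0 * tc ((δ • γ • y).1 w) := fun w' =>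
    ((hδ w').2 w).trans (mul_le_mul_of_nonneg_right hBr (tc_pos _).le)
  refine ⟨?_, (hδ w).1.trans (Finset.single_le_sum (fun r _ => hA r) hr), fun w' =>
    ((hδ w).2 w').trans (mul_le_mul_of_nonneg_right hBr (tc_pos _).le)⟩
  by_contra hlt
  rw [not_le, lt_div_iff₀ (by positivity), mul_comm] at hlt
  have h1 : B0 * tc ((δ • γ • y).1 w) ≤ 1 := hlt.le.trans (min_le_right _ _)
  have h2 : height (δ • γ • y) ≤ (B0 * tc ((δ • γ • y).1 w)) ^ Fintype.card (InfinitePlace F) := by
    rw [height, ← Finset.card_univ, ← Finset.prod_const]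
    exact Finset.prod_le_prod (fun w' _ => (tc_pos _).le) fun w' _ => hrat w'
  have h3 := h2.trans (pow_le_of_le_one (mul_nonneg (by linarith) (tc_pos _).le) h1
    Fintype.card_ne_zero)
  linarith [min_le_left c 1, hδh]

end Fermat.Agent.LT.Reduction
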